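/-
TW (S56), task TW-DICKSON: vanishing of `H¹(G, ad⁰ ⊗ det)` for a finite subgroup `G ⊂ GL₂(k)`,
`k` a finite field of odd characteristic `p`, with split characteristic polynomials,
`det G ⊇ 𝔽_p^×` and `G` irreducible.

The proof is elementary and does not use Dickson's classification of the subgroups of `SL₂`:

* (averaging) a cocycle vanishing on a subgroup of index prime to `p` is a coboundary;
* the invariant `τ(g) = tr (x g * g)` of a cocycle `x` on elements `g` of determinant one: it is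
  multiplied by `det h` under conjugation by `h` and it vanishes on elements of order prime to `p`;
* in a basis `e₁, e₂ = h e₁` (`e₁` fixed by a Sylow `p`-subgroup, `h ∈ G`), the group contains
  upper unipotents `u_t` (`t ∈ Λ ≠ 0`) and lower unipotents `l_s` (`s ∈ Λ/b`); the cocycle on
  both is put in normal form (parameters `κ, μ, A`), and `τ(l_s u_t) = 0` (the element `l_s u_t`
  has trace `2 + st`, hence is semisimple of order prime to `p` unless `st ∈ {0, -4}`) forces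
  `κ = 0` and `A` linear, i.e. the restriction to the unipotents is a coboundary.
-/
import Mathlib
import Fermat.Agent.TW.Defs

set_option autoImplicit false

namespace Fermat.Agent.TW.Dickson

open Polynomial Matrix

variable {k : Type} [Field k]

/-- The twisted adjoint action `X ↦ det g • g X g⁻¹` of `GL₂(k)` on `2 × 2` matrices. -/
def act (g : GL (Fin 2) k) : Matrix (Fin 2) (Fin 2) k →ₗ[k] Matrix (Fin 2) (Fin 2) k where
  toFun X := (g : Matrix (Fin 2) (Fin 2) k).det •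
    ((g : Matrix (Fin 2) (Fin 2) k) * X * ((g⁻¹ : GL (Fin 2) k) : Matrix (Fin 2) (Fin 2) k))
  map_add' X Y := by rw [mul_add, add_mul, smul_add]
  map_smul' a X := by
    rw [RingHom.id_apply, Matrix.mul_smul, Matrix.smul_mul, smul_comm]

theorem act_apply (g : GL (Fin 2) k) (X : Matrix (Fin 2) (Fin 2) k) :
    act g X = (g : Matrix (Fin 2) (Fin 2) k).det •
      ((g : Matrix (Fin 2) (Fin 2) k) * X * ((g⁻¹ : GL (Fin 2) k) : Matrix (Fin 2) (Fin 2) k)) :=
  rfl

theorem act_one (X : Matrix (Fin 2) (Fin 2) k) : act (1 : GL (Fin 2) k) X = X := by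
  simp [act_apply]

theorem act_mul (g h : GL (Fin 2) k) (X : Matrix (Fin 2) (Fin 2) k) :
    act (g * h) X = act g (act h X) := by
  simp only [act_apply, Units.val_mul, Matrix.det_mul, _root_.mul_inv_rev, Matrix.mul_smul,
    Matrix.smul_mul, smul_smul, Matrix.mul_assoc]

theorem coe_inv_mul (g : GL (Fin 2) k) :
    ((g⁻¹ : GL (Fin 2) k) : Matrix (Fin 2) (Fin 2) k) * (g : Matrix (Fin 2) (Fin 2) k) = 1 := by
  rw [← Units.val_mul, inv_mul_cancel, Units.val_one]

theorem coe_mul_inv (g : GL (Fin 2) k) :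
    (g : Matrix (Fin 2) (Fin 2) k) * ((g⁻¹ : GL (Fin 2) k) : Matrix (Fin 2) (Fin 2) k) = 1 := by
  rw [← Units.val_mul, mul_inv_cancel, Units.val_one]

theorem trace_act (g : GL (Fin 2) k) (X : Matrix (Fin 2) (Fin 2) k) :
    (act g X).trace = (g : Matrix (Fin 2) (Fin 2) k).det * X.trace := by
  rw [act_apply, Matrix.trace_smul, smul_eq_mul, Matrix.trace_mul_comm, ← Matrix.mul_assoc,
    coe_inv_mul, Matrix.one_mul]

/-- `tr (act g X * g) = det g * tr (X * g)`. -/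
theorem trace_act_mul_self (g : GL (Fin 2) k) (X : Matrix (Fin 2) (Fin 2) k) :
    (act g X * (g : Matrix (Fin 2) (Fin 2) k)).trace =
      (g : Matrix (Fin 2) (Fin 2) k).det * (X * (g : Matrix (Fin 2) (Fin 2) k)).trace := by
  rw [act_apply, Matrix.smul_mul, Matrix.trace_smul, smul_eq_mul, Matrix.mul_assoc, coe_inv_mul,
    Matrix.mul_one, Matrix.trace_mul_comm]

/-- `tr (act g X * (g * Y)) = det g * tr (X * (Y * g))`. -/
theorem trace_act_mul (g : GL (Fin 2) k) (X Y : Matrix (Fin 2) (Fin 2) k) :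
    (act g X * ((g : Matrix (Fin 2) (Fin 2) k) * Y)).trace =
      (g : Matrix (Fin 2) (Fin 2) k).det * (X * (Y * (g : Matrix (Fin 2) (Fin 2) k))).trace := by
  rw [act_apply, Matrix.smul_mul, Matrix.trace_smul, smul_eq_mul]
  congr 1
  rw [Matrix.mul_assoc, ← Matrix.mul_assoc _ (g : Matrix (Fin 2) (Fin 2) k) Y, coe_inv_mul,
    Matrix.one_mul, Matrix.mul_assoc, Matrix.trace_mul_comm, Matrix.mul_assoc]

section Cocycle

variable {G : Subgroup (GL (Fin 2) k)} {x : GL (Fin 2) k → Matrix (Fin 2) (Fin 2) k}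

theorem coc_one (hx : ∀ g ∈ G, ∀ g' ∈ G, x (g * g') = x g + act g (x g')) : x 1 = 0 := by
  have h := hx 1 G.one_mem 1 G.one_mem
  rw [mul_one, act_one] at h
  exact left_eq_add.mp h

theorem coc_inv (hx : ∀ g ∈ G, ∀ g' ∈ G, x (g * g') = x g + act g (x g')) {g : GL (Fin 2) k}
    (hg : g ∈ G) : x g⁻¹ = - act g⁻¹ (x g) := by
  have h := hx g⁻¹ (G.inv_mem hg) g hg
  rw [inv_mul_cancel, coc_one hx] at h
  exact eq_neg_of_add_eq_zero_left h.symm

/-- `tr (x (g ^ n) * g) = n * tr (x g * g)` for `det g = 1`. -/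
theorem trace_coc_pow (hx : ∀ g ∈ G, ∀ g' ∈ G, x (g * g') = x g + act g (x g'))
    {g : GL (Fin 2) k} (hg : g ∈ G) (hdet : (g : Matrix (Fin 2) (Fin 2) k).det = 1) (n : ℕ) :
    (x (g ^ n) * (g : Matrix (Fin 2) (Fin 2) k)).trace =
      n * (x g * (g : Matrix (Fin 2) (Fin 2) k)).trace := by
  induction n with
  | zero => simp [coc_one hx]
  | succ n ih =>
    rw [pow_succ', hx g hg (g ^ n) (G.pow_mem hg n), add_mul, Matrix.trace_add,
      trace_act_mul_self, hdet, one_mul, ih]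
    push_cast
    ring

/-- The invariant `tr (x g * g)` vanishes on elements of order prime to the characteristic. -/
theorem trace_coc_eq_zero_of_pow_eq_one (hx : ∀ g ∈ G, ∀ g' ∈ G, x (g * g') = x g + act g (x g'))
    {g : GL (Fin 2) k} (hg : g ∈ G) (hdet : (g : Matrix (Fin 2) (Fin 2) k).det = 1) (n : ℕ)
    (hn : (n : k) ≠ 0) (hgn : g ^ n = 1) :
    (x g * (g : Matrix (Fin 2) (Fin 2) k)).trace = 0 := by
  have h := trace_coc_pow hx hg hdet n
  rw [hgn, coc_one hx, Matrix.zero_mul, Matrix.trace_zero] at h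
  exact (mul_eq_zero.mp h.symm).resolve_left hn

/-- `tr (x (g h) * (g h)) = tr (x g * (g h)) + tr (x h * (h g))` for `det g = 1`. -/
theorem trace_coc_mul (hx : ∀ g ∈ G, ∀ g' ∈ G, x (g * g') = x g + act g (x g'))
    {g h : GL (Fin 2) k} (hg : g ∈ G) (hh : h ∈ G)
    (hdet : (g : Matrix (Fin 2) (Fin 2) k).det = 1) :
    (x (g * h) * ((g * h : GL (Fin 2) k) : Matrix (Fin 2) (Fin 2) k)).trace =
      (x g * ((g : Matrix (Fin 2) (Fin 2) k) * (h : Matrix (Fin 2) (Fin 2) k))).trace +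
      (x h * ((h : Matrix (Fin 2) (Fin 2) k) * (g : Matrix (Fin 2) (Fin 2) k))).trace := by
  rw [hx g hg h hh, add_mul, Matrix.trace_add, Units.val_mul, trace_act_mul, hdet, one_mul]

/-- `tr (x (h g h⁻¹) * (h g h⁻¹)) = det h * tr (x g * g)` for `det g = 1`. -/
theorem trace_coc_conj (hx : ∀ g ∈ G, ∀ g' ∈ G, x (g * g') = x g + act g (x g'))
    {g h : GL (Fin 2) k} (hg : g ∈ G) (hh : h ∈ G)
    (hdet : (g : Matrix (Fin 2) (Fin 2) k).det = 1) :
    (x (h * g * h⁻¹) * ((h * g * h⁻¹ : GL (Fin 2) k) : Matrix (Fin 2) (Fin 2) k)).trace =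
      (h : Matrix (Fin 2) (Fin 2) k).det * (x g * (g : Matrix (Fin 2) (Fin 2) k)).trace := by
  have hh' := G.inv_mem hh
  have hc : h * g * h⁻¹ ∈ G := G.mul_mem (G.mul_mem hh hg) hh'
  have hdc : ((h * g * h⁻¹ : GL (Fin 2) k) : Matrix (Fin 2) (Fin 2) k).det = 1 := by
    rw [Units.val_mul, Units.val_mul, Matrix.det_mul, Matrix.det_mul, hdet, mul_one,
      ← Matrix.det_mul, coe_mul_inv, Matrix.det_one]
  -- x (h g h⁻¹) = x h + act h (x g) - act (h g h⁻¹) (x h)
  have h1 : x (h * g * h⁻¹) = x h + act h (x g) - act (h * g * h⁻¹) (x h) := by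
    rw [mul_assoc, hx h hh (g * h⁻¹) (G.mul_mem hg hh'), hx g hg h⁻¹ hh', coc_inv hx hh,
      map_add, map_neg, map_neg, ← act_mul, ← act_mul, ← mul_assoc]
    abel
  rw [h1, sub_mul, add_mul, Matrix.trace_sub, Matrix.trace_add, trace_act_mul_self, hdc, one_mul]
  have h2 : (act h (x g) * ((h * g * h⁻¹ : GL (Fin 2) k) : Matrix (Fin 2) (Fin 2) k)).trace =
      (h : Matrix (Fin 2) (Fin 2) k).det * (x g * (g : Matrix (Fin 2) (Fin 2) k)).trace := by
    rw [Units.val_mul, Units.val_mul, Matrix.mul_assoc, trace_act_mul, Matrix.mul_assoc,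
      coe_inv_mul, Matrix.mul_one]
  rw [h2]
  ring

end Cocycle

section Average

variable {G : Subgroup (GL (Fin 2) k)} {x : GL (Fin 2) k → Matrix (Fin 2) (Fin 2) k}

/-- A cocycle vanishing on a subgroup `U` whose index in `G` is invertible in `k` is a
coboundary (averaging over `G / U`). -/
theorem coc_eq_cob_of_vanish (hx : ∀ g ∈ G, ∀ g' ∈ G, x (g * g') = x g + act g (x g'))
    (hx0 : ∀ g ∈ G, (x g).trace = 0) (U : Subgroup (GL (Fin 2) k))
    (hidx : ((U.relIndex G : ℕ) : k) ≠ 0) (hU : ∀ u ∈ U, x u = 0) :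
    ∃ Y : Matrix (Fin 2) (Fin 2) k, Y.trace = 0 ∧ ∀ g ∈ G, x g = act g Y - Y := by
  classical
  set N : Subgroup G := U.subgroupOf G with hN
  have hidx0 : N.index ≠ 0 := by
    intro h0
    apply hidx
    rw [Subgroup.relIndex, ← hN, h0, Nat.cast_zero]
  have : Finite (G ⧸ N) := Nat.finite_of_card_ne_zero hidx0
  let _ : Fintype (G ⧸ N) := Fintype.ofFinite _
  set rep : G ⧸ N → G := Quotient.out with hrep
  set Y₀ : Matrix (Fin 2) (Fin 2) k := ∑ q : G ⧸ N, x (rep q : GL (Fin 2) k) with hY₀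
  have hcard : (Fintype.card (G ⧸ N) : k) = ((U.relIndex G : ℕ) : k) := by
    rw [Subgroup.relIndex, ← hN, Subgroup.index, Nat.card_eq_fintype_card]
  have key : ∀ h : G, (Fintype.card (G ⧸ N) : k) • x (h : GL (Fin 2) k) = Y₀ - act h Y₀ := by
    intro h
    have h1 : ∀ q : G ⧸ N, x (rep (h • q) : GL (Fin 2) k) =
        x (h : GL (Fin 2) k) + act h (x (rep q : GL (Fin 2) k)) := by
      intro q
      have h2 : ((h * rep q : G) : G ⧸ N) = ((rep (h • q) : G) : G ⧸ N) := by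
        rw [hrep, QuotientGroup.out_eq', ← smul_eq_mul, ← MulAction.Quotient.smul_mk,
          QuotientGroup.out_eq']
      have h3 : (h * rep q)⁻¹ * rep (h • q) ∈ N := QuotientGroup.eq.mp h2
      have h4 : (((h * rep q)⁻¹ * rep (h • q) : G) : GL (Fin 2) k) ∈ U :=
        Subgroup.mem_subgroupOf.mp h3
      have h5 : (rep (h • q) : GL (Fin 2) k) =
          ((h : GL (Fin 2) k) * (rep q : GL (Fin 2) k)) *
            (((h * rep q)⁻¹ * rep (h • q) : G) : GL (Fin 2) k) := by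
        push_cast
        group
      rw [h5, hx _ (G.mul_mem h.2 (rep q).2) _
        (((h * rep q)⁻¹ * rep (h • q) : G)).2, hU _ h4, map_zero, add_zero,
        hx _ h.2 _ (rep q).2]
    have h6 : ∑ q : G ⧸ N, x (rep (h • q) : GL (Fin 2) k) = Y₀ :=
      Equiv.sum_comp (MulAction.toPerm h) (fun q => x (rep q : GL (Fin 2) k))
    rw [Finset.sum_congr rfl (fun q _ => h1 q), Finset.sum_add_distrib, Finset.sum_const,
      Finset.card_univ, ← map_sum, ← hY₀] at h6
    rw [Nat.cast_smul_eq_nsmul]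
    exact eq_sub_of_add_eq h6
  have hc0 : (Fintype.card (G ⧸ N) : k) ≠ 0 := by rw [hcard]; exact hidx
  refine ⟨-((Fintype.card (G ⧸ N) : k)⁻¹ • Y₀), ?_, ?_⟩
  · rw [Matrix.trace_neg, Matrix.trace_smul, hY₀, Matrix.trace_sum]
    simp [hx0 _ (rep _).2]
  · intro g hg
    have h7 := key ⟨g, hg⟩
    simp only [] at h7
    rw [map_neg, map_smul]
    have h8 : x g = (Fintype.card (G ⧸ N) : k)⁻¹ • (Y₀ - act g Y₀) := by
      rw [← h7, smul_smul, inv_mul_cancel₀ hc0, one_smul]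
    rw [h8, smul_sub]
    abel

end Average

/-- The upper unipotent element `[1, t; 0, 1]`. -/
def uu (t : k) : GL (Fin 2) k where
  val := !![1, t; 0, 1]
  inv := !![1, -t; 0, 1]
  val_inv := by simp [Matrix.one_fin_two]
  inv_val := by simp [Matrix.one_fin_two]

/-- The lower unipotent element `[1, 0; s, 1]`. -/
def ll (s : k) : GL (Fin 2) k where
  val := !![1, 0; s, 1]
  inv := !![1, 0; -s, 1]
  val_inv := by simp [Matrix.one_fin_two]
  inv_val := by simp [Matrix.one_fin_two]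

theorem coe_uu (t : k) : ((uu t : GL (Fin 2) k) : Matrix (Fin 2) (Fin 2) k) = !![1, t; 0, 1] := rfl

theorem coe_uu_inv (t : k) :
    (((uu t)⁻¹ : GL (Fin 2) k) : Matrix (Fin 2) (Fin 2) k) = !![1, -t; 0, 1] := rfl

theorem coe_ll (s : k) : ((ll s : GL (Fin 2) k) : Matrix (Fin 2) (Fin 2) k) = !![1, 0; s, 1] := rfl

theorem coe_ll_inv (s : k) :
    (((ll s)⁻¹ : GL (Fin 2) k) : Matrix (Fin 2) (Fin 2) k) = !![1, 0; -s, 1] := rfl

theorem uu_add (s t : k) : uu (s + t) = uu s * uu t := by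
  apply Units.ext
  rw [Units.val_mul, coe_uu, coe_uu, coe_uu, Matrix.mul_fin_two]
  simp [add_comm]

theorem ll_add (s t : k) : ll (s + t) = ll s * ll t := by
  apply Units.ext
  rw [Units.val_mul, coe_ll, coe_ll, coe_ll, Matrix.mul_fin_two]
  simp

theorem uu_zero : uu (0 : k) = 1 := by
  apply Units.ext
  rw [coe_uu, Units.val_one, Matrix.one_fin_two]

theorem ll_zero : ll (0 : k) = 1 := by
  apply Units.ext
  rw [coe_ll, Units.val_one, Matrix.one_fin_two]

theorem uu_neg (t : k) : uu (-t) = (uu t)⁻¹ := by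
  apply Units.ext
  rw [coe_uu, coe_uu_inv]

theorem ll_neg (s : k) : ll (-s) = (ll s)⁻¹ := by
  apply Units.ext
  rw [coe_ll, coe_ll_inv]

theorem uu_injective : Function.Injective (uu : k → GL (Fin 2) k) := by
  intro s t h
  have h1 := congrArg (fun g : GL (Fin 2) k => (g : Matrix (Fin 2) (Fin 2) k) 0 1) h
  simpa [coe_uu] using h1

theorem det_uu (t : k) : ((uu t : GL (Fin 2) k) : Matrix (Fin 2) (Fin 2) k).det = 1 := by
  simp [coe_uu, Matrix.det_fin_two]

theorem det_ll (s : k) : ((ll s : GL (Fin 2) k) : Matrix (Fin 2) (Fin 2) k).det = 1 := by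
  simp [coe_ll, Matrix.det_fin_two]

/-- The upper unipotent subgroup. -/
def upperU (k : Type) [Field k] : Subgroup (GL (Fin 2) k) where
  carrier := {g | ∃ t : k, g = uu t}
  mul_mem' := by
    rintro _ _ ⟨s, rfl⟩ ⟨t, rfl⟩
    exact ⟨s + t, (uu_add s t).symm⟩
  one_mem' := ⟨0, uu_zero.symm⟩
  inv_mem' := by
    rintro _ ⟨t, rfl⟩
    exact ⟨-t, (uu_neg t).symm⟩

theorem mem_upperU {g : GL (Fin 2) k} : g ∈ upperU k ↔ ∃ t : k, g = uu t := Iff.rfl

theorem act_uu (s : k) (X : Matrix (Fin 2) (Fin 2) k) :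
    act (uu s) X = !![X 0 0 + s * X 1 0, X 0 1 + s * X 1 1 - s * X 0 0 - s ^ 2 * X 1 0;
      X 1 0, X 1 1 - s * X 1 0] := by
  rw [act_apply, det_uu, one_smul, coe_uu, coe_uu_inv]
  conv_lhs => rw [Matrix.eta_fin_two X]
  rw [Matrix.mul_fin_two, Matrix.mul_fin_two]
  ext i j
  fin_cases i <;> fin_cases j <;> simp <;> ring

theorem act_ll (s : k) (X : Matrix (Fin 2) (Fin 2) k) :
    act (ll s) X = !![X 0 0 - s * X 0 1, X 0 1;
      X 1 0 + s * X 0 0 - s * X 1 1 - s ^ 2 * X 0 1, X 1 1 + s * X 0 1] := by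
  rw [act_apply, det_ll, one_smul, coe_ll, coe_ll_inv]
  conv_lhs => rw [Matrix.eta_fin_two X]
  rw [Matrix.mul_fin_two, Matrix.mul_fin_two]
  ext i j
  fin_cases i <;> fin_cases j <;> simp <;> ring

theorem trace_mul_uu (X : Matrix (Fin 2) (Fin 2) k) (hX : X.trace = 0) (t : k) :
    (X * ((uu t : GL (Fin 2) k) : Matrix (Fin 2) (Fin 2) k)).trace = t * X 1 0 := by
  rw [Matrix.trace_fin_two] at hX
  conv_lhs => rw [Matrix.eta_fin_two X]
  rw [coe_uu, Matrix.mul_fin_two, Matrix.trace_fin_two]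
  simp only [Matrix.of_apply, Matrix.cons_val_zero, Matrix.cons_val_one, Matrix.cons_val']
  linear_combination hX

theorem trace_mul_ll (X : Matrix (Fin 2) (Fin 2) k) (hX : X.trace = 0) (s : k) :
    (X * ((ll s : GL (Fin 2) k) : Matrix (Fin 2) (Fin 2) k)).trace = s * X 0 1 := by
  rw [Matrix.trace_fin_two] at hX
  conv_lhs => rw [Matrix.eta_fin_two X]
  rw [coe_ll, Matrix.mul_fin_two, Matrix.trace_fin_two]
  simp only [Matrix.of_apply, Matrix.cons_val_zero, Matrix.cons_val_one, Matrix.cons_val']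
  linear_combination hX

theorem trace_mul_ll_uu (X : Matrix (Fin 2) (Fin 2) k) (hX : X.trace = 0) (s t : k) :
    (X * (((ll s : GL (Fin 2) k) : Matrix (Fin 2) (Fin 2) k) *
      ((uu t : GL (Fin 2) k) : Matrix (Fin 2) (Fin 2) k))).trace =
      s * X 0 1 + t * (X 1 0 + s * X 1 1) := by
  rw [Matrix.trace_fin_two] at hX
  conv_lhs => rw [Matrix.eta_fin_two X]
  rw [coe_ll, coe_uu, Matrix.mul_fin_two, Matrix.mul_fin_two, Matrix.trace_fin_two]
  simp only [Matrix.of_apply, Matrix.cons_val_zero, Matrix.cons_val_one, Matrix.cons_val']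
  linear_combination hX

theorem trace_mul_uu_ll (X : Matrix (Fin 2) (Fin 2) k) (hX : X.trace = 0) (s t : k) :
    (X * (((uu t : GL (Fin 2) k) : Matrix (Fin 2) (Fin 2) k) *
      ((ll s : GL (Fin 2) k) : Matrix (Fin 2) (Fin 2) k))).trace =
      s * (X 0 1 + t * X 0 0) + t * X 1 0 := by
  rw [Matrix.trace_fin_two] at hX
  conv_lhs => rw [Matrix.eta_fin_two X]
  rw [coe_ll, coe_uu, Matrix.mul_fin_two, Matrix.mul_fin_two, Matrix.trace_fin_two]
  simp only [Matrix.of_apply, Matrix.cons_val_zero, Matrix.cons_val_one, Matrix.cons_val']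
  linear_combination hX

theorem coe_ll_mul_uu (s t : k) :
    ((ll s * uu t : GL (Fin 2) k) : Matrix (Fin 2) (Fin 2) k) = !![1, t; s, s * t + 1] := by
  rw [Units.val_mul, coe_ll, coe_uu, Matrix.mul_fin_two]
  simp

theorem det_ll_mul_uu (s t : k) :
    ((ll s * uu t : GL (Fin 2) k) : Matrix (Fin 2) (Fin 2) k).det = 1 := by
  rw [Units.val_mul, Matrix.det_mul, det_ll, det_uu, one_mul]

theorem trace_ll_mul_uu (s t : k) :
    ((ll s * uu t : GL (Fin 2) k) : Matrix (Fin 2) (Fin 2) k).trace = 2 + s * t := by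
  rw [coe_ll_mul_uu, Matrix.trace_fin_two]
  simp only [Matrix.of_apply, Matrix.cons_val_zero, Matrix.cons_val_one, Matrix.cons_val']
  ring

section Cocycle

variable {G : Subgroup (GL (Fin 2) k)} {x : GL (Fin 2) k → Matrix (Fin 2) (Fin 2) k}

theorem x11_eq (hx0 : ∀ g ∈ G, (x g).trace = 0) {g : GL (Fin 2) k} (hg : g ∈ G) :
    x g 1 1 = - x g 0 0 := by
  have h := hx0 g hg
  rw [Matrix.trace_fin_two] at h
  linear_combination h

theorem x00_eq (hx0 : ∀ g ∈ G, (x g).trace = 0) {g : GL (Fin 2) k} (hg : g ∈ G) :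
    x g 0 0 = - x g 1 1 := by
  have h := hx0 g hg
  rw [Matrix.trace_fin_two] at h
  linear_combination h

/-- (R2) for the upper unipotent elements. -/
theorem uu_R2 (hx : ∀ g ∈ G, ∀ g' ∈ G, x (g * g') = x g + act g (x g'))
    {s t : k} (hs : uu s ∈ G) (ht : uu t ∈ G) :
    x (uu (s + t)) 0 0 = x (uu s) 0 0 + x (uu t) 0 0 + s * x (uu t) 1 0 := by
  rw [uu_add, hx _ hs _ ht, act_uu]
  simp only [Matrix.add_apply, Matrix.of_apply, Matrix.cons_val_zero, Matrix.cons_val']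
  ring

/-- (R3) for the upper unipotent elements. -/
theorem uu_R3 (hx : ∀ g ∈ G, ∀ g' ∈ G, x (g * g') = x g + act g (x g'))
    (hx0 : ∀ g ∈ G, (x g).trace = 0) {s t : k} (hs : uu s ∈ G) (ht : uu t ∈ G) :
    x (uu (s + t)) 0 1 = x (uu s) 0 1 + x (uu t) 0 1 - 2 * s * x (uu t) 0 0 -
      s ^ 2 * x (uu t) 1 0 := by
  rw [uu_add, hx _ hs _ ht, act_uu]
  simp only [Matrix.add_apply, Matrix.of_apply, Matrix.cons_val_zero, Matrix.cons_val_one,
    Matrix.cons_val']
  rw [x11_eq hx0 ht]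
  ring

/-- (R2) for the lower unipotent elements. -/
theorem ll_R2 (hx : ∀ g ∈ G, ∀ g' ∈ G, x (g * g') = x g + act g (x g'))
    {s t : k} (hs : ll s ∈ G) (ht : ll t ∈ G) :
    x (ll (s + t)) 1 1 = x (ll s) 1 1 + x (ll t) 1 1 + s * x (ll t) 0 1 := by
  rw [ll_add, hx _ hs _ ht, act_ll]
  simp only [Matrix.add_apply, Matrix.of_apply, Matrix.cons_val_zero, Matrix.cons_val_one,
    Matrix.cons_val']
  ring

/-- (R3) for the lower unipotent elements. -/
theorem ll_R3 (hx : ∀ g ∈ G, ∀ g' ∈ G, x (g * g') = x g + act g (x g'))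
    (hx0 : ∀ g ∈ G, (x g).trace = 0) {s t : k} (hs : ll s ∈ G) (ht : ll t ∈ G) :
    x (ll (s + t)) 1 0 = x (ll s) 1 0 + x (ll t) 1 0 - 2 * s * x (ll t) 1 1 -
      s ^ 2 * x (ll t) 0 1 := by
  rw [ll_add, hx _ hs _ ht, act_ll]
  simp only [Matrix.add_apply, Matrix.of_apply, Matrix.cons_val_zero, Matrix.cons_val_one,
    Matrix.cons_val']
  rw [x00_eq hx0 ht]
  ring

end Cocycle

/-- Normal form of a "unipotent cocycle triple" on an additive subgroup containing `t₀ ≠ 0`. -/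
theorem nf_lemma (h2 : (2 : k) ≠ 0) (Λ : AddSubgroup k) (α β γ : k → k)
    (R2 : ∀ s ∈ Λ, ∀ t ∈ Λ, β (s + t) = β s + β t + s * γ t)
    (R3 : ∀ s ∈ Λ, ∀ t ∈ Λ, α (s + t) = α s + α t - 2 * s * β t - s ^ 2 * γ t)
    (t₀ : k) (ht₀ : t₀ ∈ Λ) (ht₀0 : t₀ ≠ 0) :
    ∃ κ μ : k, (∀ t ∈ Λ, γ t = κ * t) ∧ (∀ t ∈ Λ, β t = κ * t ^ 2 / 2 + μ * t) ∧
      (∀ s ∈ Λ, ∀ t ∈ Λ, α (s + t) + (s + t) * β (s + t) =
        (α s + s * β s) + (α t + t * β t) + κ * (s ^ 2 * t + s * t ^ 2) / 2) := by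
  have hγ : ∀ s ∈ Λ, ∀ t ∈ Λ, s * γ t = t * γ s := by
    intro s hs t ht
    have h1 := R2 s hs t ht
    have h1' := R2 t ht s hs
    rw [add_comm t s] at h1'
    linear_combination h1' - h1
  have hκ : ∀ t ∈ Λ, γ t = γ t₀ / t₀ * t := by
    intro t ht
    have h1 := hγ t₀ ht₀ t ht
    field_simp
    linear_combination h1
  have hβ0 : ∀ s ∈ Λ, ∀ t ∈ Λ,
      s * (β t - γ t₀ / t₀ * t ^ 2 / 2) = t * (β s - γ t₀ / t₀ * s ^ 2 / 2) := by
    intro s hs t ht
    have h1 := R3 s hs t ht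
    have h1' := R3 t ht s hs
    rw [add_comm t s, hκ s hs] at h1'
    rw [hκ t ht] at h1
    have h3 : 2 * (s * (β t - γ t₀ / t₀ * t ^ 2 / 2)) = 2 * (t * (β s - γ t₀ / t₀ * s ^ 2 / 2)) := by
      field_simp
      field_simp at h1 h1'
      linear_combination h1 - h1'
    exact mul_left_cancel₀ h2 h3
  have hβ : ∀ t ∈ Λ, β t = γ t₀ / t₀ * t ^ 2 / 2 + (β t₀ - γ t₀ / t₀ * t₀ ^ 2 / 2) / t₀ * t := by
    intro t ht
    have h1 := hβ0 t₀ ht₀ t ht
    field_simp
    field_simp at h1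
    linear_combination h1
  refine ⟨γ t₀ / t₀, (β t₀ - γ t₀ / t₀ * t₀ ^ 2 / 2) / t₀, hκ, hβ, ?_⟩
  intro s hs t ht
  rw [R3 s hs t ht, R2 s hs t ht, hκ t ht]
  have e1 := hβ s hs
  have e2 := hβ t ht
  generalize γ t₀ / t₀ = κ at *
  generalize (β t₀ - κ * t₀ ^ 2 / 2) / t₀ = μ at *
  rw [e1, e2]
  field_simp
  ring

section Afun

variable (Λ : AddSubgroup k) (A : k → k) (κ : k)

theorem A_zero
    (hA : ∀ s ∈ Λ, ∀ t ∈ Λ, A (s + t) = A s + A t + κ * (s ^ 2 * t + s * t ^ 2) / 2) :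
    A 0 = 0 := by
  have h := hA 0 Λ.zero_mem 0 Λ.zero_mem
  simp only [add_zero, ne_eq, OfNat.ofNat_ne_zero, not_false_eq_true, zero_pow, mul_zero,
    zero_div] at h
  exact left_eq_add.mp h

theorem A_neg
    (hA : ∀ s ∈ Λ, ∀ t ∈ Λ, A (s + t) = A s + A t + κ * (s ^ 2 * t + s * t ^ 2) / 2)
    {t : k} (ht : t ∈ Λ) : A (-t) = -A t := by
  have h := hA t ht (-t) (Λ.neg_mem ht)
  rw [add_neg_cancel, A_zero Λ A κ hA] at h
  have h' : t ^ 2 * -t + t * (-t) ^ 2 = 0 := by ring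
  rw [h', mul_zero, zero_div, add_zero] at h
  exact eq_neg_of_add_eq_zero_right h.symm

theorem kappa_eq_zero_of_three (h2 : (2 : k) ≠ 0) (h3 : (3 : k) = 0)
    (hA : ∀ s ∈ Λ, ∀ t ∈ Λ, A (s + t) = A s + A t + κ * (s ^ 2 * t + s * t ^ 2) / 2)
    {t₀ : k} (ht₀ : t₀ ∈ Λ) (ht₀0 : t₀ ≠ 0) : κ = 0 := by
  have e1 := hA t₀ ht₀ t₀ ht₀
  have e2 := hA (t₀ + t₀) (Λ.add_mem ht₀ ht₀) t₀ ht₀
  have h0 : t₀ + t₀ + t₀ = 0 := by linear_combination t₀ * h3
  rw [h0, A_zero Λ A κ hA, e1] at e2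
  field_simp at e2
  have h4 : κ * t₀ ^ 3 = 0 := by
    linear_combination e2 + (3 * κ * t₀ ^ 3 + 2 * A t₀) * h3
  rcases mul_eq_zero.mp h4 with h | h
  · exact h
  · exact absurd (pow_eq_zero_iff (by norm_num) |>.mp h) ht₀0

end Afun

/-- The elimination of `κ`. -/
theorem kappa_elim (h2 : (2 : k) ≠ 0) (b c κ : k) (hb : b ≠ 0) (hc : c ≠ 0)
    (h5 : (5 : k) ≠ 0 ∨ b ^ 2 ≠ 1) (h3 : (3 : k) = 0 → κ = 0)
    (F : ∀ j : ℕ, (j : k) * c ≠ 0 → (j : k) * c ≠ 4 → (j : k) * c ≠ -4 → κ ≠ 0 →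
      b * (j : k) ^ 2 = 1) : κ = 0 := by
  by_contra hκ
  have h3' : (3 : k) ≠ 0 := fun h => hκ (h3 h)
  have h4 : (4 : k) ≠ 0 := by
    have : (4 : k) = 2 * 2 := by norm_num
    rw [this]; exact mul_ne_zero h2 h2
  have h6 : (6 : k) ≠ 0 := by
    have : (6 : k) = 2 * 3 := by norm_num
    rw [this]; exact mul_ne_zero h2 h3'
  have h8 : (8 : k) ≠ 0 := by
    have : (8 : k) = 2 * 4 := by norm_num
    rw [this]; exact mul_ne_zero h2 h4
  have h12 : (12 : k) ≠ 0 := by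
    have : (12 : k) = 3 * 4 := by norm_num
    rw [this]; exact mul_ne_zero h3' h4
  have h16 : (16 : k) ≠ 0 := by
    have : (16 : k) = 4 * 4 := by norm_num
    rw [this]; exact mul_ne_zero h4 h4
  have F1 := F 1
  have F2 := F 2
  have F3 := F 3
  simp only [Nat.cast_one, one_mul, one_pow, mul_one, Nat.cast_ofNat] at F1 F2 F3
  have key45 : (4 : k) * b = 1 → (9 : k) * b = 1 → False := by
    intro e4 e9
    have h5b : (5 : k) * b = 0 := by linear_combination e9 - e4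
    have h50 : (5 : k) = 0 := (mul_eq_zero.mp h5b).resolve_right hb
    rcases h5 with h5 | h5
    · exact h5 h50
    · apply h5
      have hb1 : b = -1 := by linear_combination b * h50 - e4
      rw [hb1]; ring
  by_cases c4 : c = 4
  · subst c4
    have e4 : b * 2 ^ 2 = 1 := F2 (mul_ne_zero h2 h4)
      (by intro h; apply h4; linear_combination h)
      (by intro h; apply h12; linear_combination h) hκ
    have e9 : b * 3 ^ 2 = 1 := F3 (by intro h; apply h12; linear_combination h)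
      (by intro h; apply h8; linear_combination h)
      (by intro h; apply h16; linear_combination h) hκ
    exact key45 (by linear_combination e4) (by linear_combination e9)
  by_cases c4' : c = -4
  · subst c4'
    have e4 : b * 2 ^ 2 = 1 := F2 (by intro h; apply h8; linear_combination -h)
      (by intro h; apply h12; linear_combination -h)
      (by intro h; apply h4; linear_combination -h) hκ
    have e9 : b * 3 ^ 2 = 1 := F3 (by intro h; apply h12; linear_combination -h)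
      (by intro h; apply h16; linear_combination -h)
      (by intro h; apply h8; linear_combination -h) hκ
    exact key45 (by linear_combination e4) (by linear_combination e9)
  have e1 : b = 1 := F1 hc c4 c4' hκ
  subst e1
  have h5' : (5 : k) ≠ 0 := by
    rcases h5 with h5 | h5
    · exact h5
    · exact absurd (one_pow 2) h5
  have h10 : (10 : k) ≠ 0 := by
    have : (10 : k) = 2 * 5 := by norm_num
    rw [this]; exact mul_ne_zero h2 h5'
  by_cases c2 : c = 2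
  · subst c2
    have e9 : (1 : k) * 3 ^ 2 = 1 := F3 (by intro h; apply h6; linear_combination h)
      (by intro h; apply h2; linear_combination h)
      (by intro h; apply h10; linear_combination h) hκ
    apply h8; linear_combination e9
  by_cases c2' : c = -2
  · subst c2'
    have e9 : (1 : k) * 3 ^ 2 = 1 := F3 (by intro h; apply h6; linear_combination -h)
      (by intro h; apply h10; linear_combination -h)
      (by intro h; apply h2; linear_combination -h) hκ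
    apply h8; linear_combination e9
  have e4 : (1 : k) * 2 ^ 2 = 1 := F2 (mul_ne_zero h2 hc)
    (by intro h; apply c2; exact mul_left_cancel₀ h2 (by linear_combination h))
    (by intro h; apply c2'; exact mul_left_cancel₀ h2 (by linear_combination h)) hκ
  apply h3'; linear_combination e4

/-- The sum of `(★)` at `(s, t)` and `(s, -t)`. -/
theorem star_sym (h2 : (2 : k) ≠ 0) (Λ Λ' : AddSubgroup k) (A A' : k → k) (κ κ' : k)
    (hAneg : ∀ t ∈ Λ, A (-t) = -A t)
    (star : ∀ s ∈ Λ', ∀ t ∈ Λ, s * t ≠ 0 → s * t ≠ -4 →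
      s * A t + κ * t ^ 2 + t * A' s + κ' * s ^ 2 = 0) :
    ∀ s ∈ Λ', ∀ t ∈ Λ, s * t ≠ 0 → s * t ≠ 4 → s * t ≠ -4 → κ * t ^ 2 + κ' * s ^ 2 = 0 := by
  intro s hs t ht h0 h4 h4'
  have e1 := star s hs t ht h0 h4'
  have e2 := star s hs (-t) (Λ.neg_mem ht) (by rw [mul_neg, neg_ne_zero]; exact h0)
    (by rw [mul_neg]; intro h; exact h4 (neg_injective h))
  rw [hAneg t ht] at e2
  have h3 : 2 * (κ * t ^ 2 + κ' * s ^ 2) = 2 * 0 := by linear_combination e1 + e2
  exact mul_left_cancel₀ h2 h3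

/-- With `κ = κ' = 0`, `(★)` forces `A` to be linear. -/
theorem linear_of_star (h2 : (2 : k) ≠ 0) (Λ Λ' : AddSubgroup k) (A A' : k → k)
    (hA : ∀ s ∈ Λ, ∀ t ∈ Λ, A (s + t) = A s + A t)
    (star : ∀ s ∈ Λ', ∀ t ∈ Λ, s * t ≠ 0 → s * t ≠ -4 → s * A t + t * A' s = 0)
    (s₁ : k) (hs₁ : s₁ ∈ Λ') (hs₁0 : s₁ ≠ 0) : ∃ c : k, ∀ t ∈ Λ, A t = c * t := by
  have hA0 : A 0 = 0 := by
    have h := hA 0 Λ.zero_mem 0 Λ.zero_mem
    rw [add_zero] at h
    exact left_eq_add.mp h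
  have h4 : (4 : k) ≠ 0 := by
    have : (4 : k) = 2 * 2 := by norm_num
    rw [this]; exact mul_ne_zero h2 h2
  have key : ∀ t ∈ Λ, s₁ * A t + t * A' s₁ = 0 := by
    intro t ht
    by_cases ht0 : t = 0
    · rw [ht0, hA0]; ring
    by_cases h : s₁ * t = -4
    · have e := star s₁ hs₁ (t + t) (Λ.add_mem ht ht)
        (by rw [← two_mul, mul_left_comm]; exact mul_ne_zero h2 (mul_ne_zero hs₁0 ht0))
        (by intro h'; apply h4; linear_combination 2 * h - h')
      rw [hA t ht t ht] at e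
      exact mul_left_cancel₀ h2 (by linear_combination e)
    · exact star s₁ hs₁ t ht (mul_ne_zero hs₁0 ht0) h
  refine ⟨-A' s₁ / s₁, fun t ht => ?_⟩
  have e := key t ht
  field_simp
  linear_combination e

/-- A `2 × 2` matrix over a finite field with two distinct nonzero eigenvalues in the field has
order dividing `#k - 1`. -/
theorem pow_card_sub_one_eq_one_of_charpoly [Fintype k] (M : Matrix (Fin 2) (Fin 2) k) (a b : k)
    (hM : M.charpoly = (X - C a) * (X - C b)) (hab : a ≠ b) (ha : a ≠ 0) (hb : b ≠ 0) :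
    M ^ (Fintype.card k - 1) = 1 := by
  have hCH := Matrix.aeval_self_charpoly M
  have hCH' := hCH
  rw [hM] at hCH
  rw [hM, mul_comm] at hCH'
  simp only [map_mul, map_sub, aeval_X, aeval_C] at hCH hCH'
  set P := M - algebraMap k (Matrix (Fin 2) (Fin 2) k) b with hP
  set Q := M - algebraMap k (Matrix (Fin 2) (Fin 2) k) a with hQ
  have hMP : M * P = a • P := by
    have h1 : Q * P = 0 := hCH
    rw [hQ, sub_mul, sub_eq_zero, ← Algebra.smul_def] at h1
    exact h1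
  have hMQ : M * Q = b • Q := by
    have h1 : P * Q = 0 := hCH'
    rw [hP, sub_mul, sub_eq_zero, ← Algebra.smul_def] at h1
    exact h1
  have hpowP : ∀ n : ℕ, M ^ n * P = a ^ n • P := by
    intro n
    induction n with
    | zero => simp
    | succ n ih => rw [pow_succ, mul_assoc, hMP, Matrix.mul_smul, ih, smul_smul, pow_succ, mul_comm]
  have hpowQ : ∀ n : ℕ, M ^ n * Q = b ^ n • Q := by
    intro n
    induction n with
    | zero => simp
    | succ n ih => rw [pow_succ, mul_assoc, hMQ, Matrix.mul_smul, ih, smul_smul, pow_succ, mul_comm]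
  have h1 := hpowP (Fintype.card k - 1)
  have h2 := hpowQ (Fintype.card k - 1)
  rw [FiniteField.pow_card_sub_one_eq_one a ha, one_smul] at h1
  rw [FiniteField.pow_card_sub_one_eq_one b hb, one_smul] at h2
  have hPQ : P - Q = (a - b) • (1 : Matrix (Fin 2) (Fin 2) k) := by
    rw [hP, hQ, Algebra.algebraMap_eq_smul_one, Algebra.algebraMap_eq_smul_one, sub_smul]
    abel
  have h3 : M ^ (Fintype.card k - 1) * (P - Q) = P - Q := by rw [mul_sub, h1, h2]
  rw [hPQ, Matrix.mul_smul, mul_one] at h3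
  exact smul_right_injective _ (sub_ne_zero.mpr hab) h3

/-- `#k - 1` is invertible in a finite field `k`. -/
theorem card_sub_one_ne_zero [Fintype k] : ((Fintype.card k - 1 : ℕ) : k) ≠ 0 := by
  rw [Nat.cast_sub Fintype.card_pos, Nat.cast_card_eq_zero, Nat.cast_one, zero_sub, neg_ne_zero]
  exact one_ne_zero

/-- If `ll s * uu t` has a split characteristic polynomial and `s * t ∉ {0, -4}`, then it has
order prime to the characteristic. -/
theorem ll_mul_uu_pow [Fintype k] (s t : k) (hst0 : s * t ≠ 0) (hst4 : s * t ≠ -4)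
    (hsplit : ∃ a b : k, ((ll s * uu t : GL (Fin 2) k) : Matrix (Fin 2) (Fin 2) k).charpoly =
      (X - C a) * (X - C b)) :
    (ll s * uu t : GL (Fin 2) k) ^ (Fintype.card k - 1) = 1 := by
  obtain ⟨a, b, hab⟩ := hsplit
  have hcp := Matrix.charpoly_fin_two ((ll s * uu t : GL (Fin 2) k) : Matrix (Fin 2) (Fin 2) k)
  rw [hab, det_ll_mul_uu, trace_ll_mul_uu] at hcp
  have e0 := congrArg (Polynomial.eval 0) hcp
  have e1 := congrArg (Polynomial.eval 1) hcp
  simp only [eval_mul, eval_sub, eval_X, eval_C, eval_add, eval_pow] at e0 e1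
  have hab1 : a * b = 1 := by linear_combination e0
  have hsum : a + b = 2 + s * t := by linear_combination hab1 - e1
  have ha : a ≠ 0 := left_ne_zero_of_mul_eq_one hab1
  have hb : b ≠ 0 := right_ne_zero_of_mul_eq_one hab1
  have hne : a ≠ b := by
    intro h
    subst h
    have h1 : (a - 1) * (a + 1) = 0 := by linear_combination hab1
    rcases mul_eq_zero.mp h1 with h | h
    · apply hst0
      linear_combination 2 * h - hsum
    · apply hst4
      linear_combination 2 * h - hsum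
  apply Units.ext
  rw [Units.val_pow_eq_pow_val, Units.val_one]
  exact pow_card_sub_one_eq_one_of_charpoly _ a b hab hne ha hb

/-- The parameters `t` with `uu t ∈ G`. -/
def lamU (G : Subgroup (GL (Fin 2) k)) : AddSubgroup k where
  carrier := {t | uu t ∈ G}
  add_mem' := fun {s t} hs ht => by
    change uu (s + t) ∈ G; rw [uu_add]; exact G.mul_mem hs ht
  zero_mem' := by
    change uu 0 ∈ G; rw [uu_zero]; exact G.one_mem
  neg_mem' := fun {t} ht => by
    change uu (-t) ∈ G; rw [uu_neg]; exact G.inv_mem ht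

/-- The parameters `s` with `ll s ∈ G`. -/
def lamL (G : Subgroup (GL (Fin 2) k)) : AddSubgroup k where
  carrier := {s | ll s ∈ G}
  add_mem' := fun {s t} hs ht => by
    change ll (s + t) ∈ G; rw [ll_add]; exact G.mul_mem hs ht
  zero_mem' := by
    change ll 0 ∈ G; rw [ll_zero]; exact G.one_mem
  neg_mem' := fun {t} ht => by
    change ll (-t) ∈ G; rw [ll_neg]; exact G.inv_mem ht

theorem mem_lamU {G : Subgroup (GL (Fin 2) k)} {t : k} : t ∈ lamU G ↔ uu t ∈ G := Iff.rfl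

theorem mem_lamL {G : Subgroup (GL (Fin 2) k)} {s : k} : s ∈ lamL G ↔ ll s ∈ G := Iff.rfl

theorem conj_uu (h : GL (Fin 2) k) (b d : k) (hb : b ≠ 0)
    (hmat : (h : Matrix (Fin 2) (Fin 2) k) = !![0, b; 1, d]) (t : k) :
    h * uu t * h⁻¹ = ll (t / b) := by
  rw [mul_inv_eq_iff_eq_mul]
  apply Units.ext
  rw [Units.val_mul, Units.val_mul, hmat, coe_uu, coe_ll, Matrix.mul_fin_two, Matrix.mul_fin_two]
  ext i j
  fin_cases i <;> fin_cases j <;> simp
  field_simp

section Core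

variable [Fintype k] {G : Subgroup (GL (Fin 2) k)} {x : GL (Fin 2) k → Matrix (Fin 2) (Fin 2) k}

/-- The relation `(★)`. -/
theorem star_rel
    (hsplit : ∀ g ∈ G, ∃ α β : k,
      (g : Matrix (Fin 2) (Fin 2) k).charpoly = (X - C α) * (X - C β))
    (hx0 : ∀ g ∈ G, (x g).trace = 0)
    (hx : ∀ g ∈ G, ∀ g' ∈ G, x (g * g') = x g + act g (x g'))
    {s t : k} (hs : ll s ∈ G) (ht : uu t ∈ G) (h0 : s * t ≠ 0) (h4 : s * t ≠ -4) :
    s * x (ll s) 0 1 + t * (x (ll s) 1 0 + s * x (ll s) 1 1) +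
      (s * (x (uu t) 0 1 + t * x (uu t) 0 0) + t * x (uu t) 1 0) = 0 := by
  have hg : ll s * uu t ∈ G := G.mul_mem hs ht
  have hpow := ll_mul_uu_pow s t h0 h4 (hsplit _ hg)
  have hτ := trace_coc_eq_zero_of_pow_eq_one hx hg (det_ll_mul_uu s t) (Fintype.card k - 1)
    card_sub_one_ne_zero hpow
  rw [trace_coc_mul hx hs ht (det_ll s), trace_mul_ll_uu _ (hx0 _ hs),
    trace_mul_uu_ll _ (hx0 _ ht)] at hτ
  exact hτ

/-- The theorem in standard position. -/
theorem core (h2 : (2 : k) ≠ 0)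
    (hsplit : ∀ g ∈ G, ∃ α β : k,
      (g : Matrix (Fin 2) (Fin 2) k).charpoly = (X - C α) * (X - C β))
    (hx0 : ∀ g ∈ G, (x g).trace = 0)
    (hx : ∀ g ∈ G, ∀ g' ∈ G, x (g * g') = x g + act g (x g'))
    (t₀ : k) (ht₀ : t₀ ≠ 0) (hut₀ : uu t₀ ∈ G)
    (h : GL (Fin 2) k) (hhG : h ∈ G) (b d : k) (hb : b ≠ 0)
    (hmat : (h : Matrix (Fin 2) (Fin 2) k) = !![0, b; 1, d])
    (h5 : (5 : k) ≠ 0 ∨ b ^ 2 ≠ 1)
    (hidx : (((upperU k).relIndex G : ℕ) : k) ≠ 0) :
    ∃ Y : Matrix (Fin 2) (Fin 2) k, Y.trace = 0 ∧ ∀ g ∈ G, x g = act g Y - Y := by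
  -- the lower unipotent elements
  have hconj : ∀ t : k, uu t ∈ G → ll (t / b) ∈ G := by
    intro t ht
    rw [← conj_uu h b d hb hmat t]
    exact G.mul_mem (G.mul_mem hhG ht) (G.inv_mem hhG)
  have hs₁ : ll (t₀ / b) ∈ G := hconj t₀ hut₀
  have hs₁0 : t₀ / b ≠ 0 := div_ne_zero ht₀ hb
  -- normal forms
  obtain ⟨κ, μ, hγ, hβ, hA⟩ : ∃ κ μ : k, (∀ t ∈ lamU G, x (uu t) 1 0 = κ * t) ∧
      (∀ t ∈ lamU G, x (uu t) 0 0 = κ * t ^ 2 / 2 + μ * t) ∧
      (∀ s ∈ lamU G, ∀ t ∈ lamU G,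
        x (uu (s + t)) 0 1 + (s + t) * x (uu (s + t)) 0 0 =
        (x (uu s) 0 1 + s * x (uu s) 0 0) + (x (uu t) 0 1 + t * x (uu t) 0 0) +
          κ * (s ^ 2 * t + s * t ^ 2) / 2) :=
    nf_lemma h2 (lamU G) (fun t => x (uu t) 0 1) (fun t => x (uu t) 0 0) (fun t => x (uu t) 1 0)
      (fun s hs t ht => uu_R2 hx hs ht) (fun s hs t ht => uu_R3 hx hx0 hs ht) t₀ hut₀ ht₀
  obtain ⟨κ', μ', hγ', -, hA'⟩ : ∃ κ' μ' : k, (∀ t ∈ lamL G, x (ll t) 0 1 = κ' * t) ∧
      (∀ t ∈ lamL G, x (ll t) 1 1 = κ' * t ^ 2 / 2 + μ' * t) ∧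
      (∀ s ∈ lamL G, ∀ t ∈ lamL G,
        x (ll (s + t)) 1 0 + (s + t) * x (ll (s + t)) 1 1 =
        (x (ll s) 1 0 + s * x (ll s) 1 1) + (x (ll t) 1 0 + t * x (ll t) 1 1) +
          κ' * (s ^ 2 * t + s * t ^ 2) / 2) :=
    nf_lemma h2 (lamL G) (fun t => x (ll t) 1 0) (fun t => x (ll t) 1 1) (fun t => x (ll t) 0 1)
      (fun s hs t ht => ll_R2 hx hs ht) (fun s hs t ht => ll_R3 hx hx0 hs ht) (t₀ / b) hs₁ hs₁0
  set A : k → k := fun t => x (uu t) 0 1 + t * x (uu t) 0 0 with hAdef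
  set A' : k → k := fun s => x (ll s) 1 0 + s * x (ll s) 1 1 with hA'def
  have hAA : ∀ s ∈ lamU G, ∀ t ∈ lamU G,
      A (s + t) = A s + A t + κ * (s ^ 2 * t + s * t ^ 2) / 2 := hA
  have hAA' : ∀ s ∈ lamL G, ∀ t ∈ lamL G,
      A' (s + t) = A' s + A' t + κ' * (s ^ 2 * t + s * t ^ 2) / 2 := hA'
  -- the relation between κ and κ'
  have hκ' : κ' = -b ^ 3 * κ := by
    have e := trace_coc_conj hx hut₀ hhG (det_uu t₀)
    rw [conj_uu h b d hb hmat t₀, trace_mul_ll _ (hx0 _ hs₁), trace_mul_uu _ (hx0 _ hut₀),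
      hγ' _ hs₁, hγ _ hut₀, hmat, Matrix.det_fin_two_of] at e
    field_simp at e
    linear_combination e
  -- (★)
  have star : ∀ s ∈ lamL G, ∀ t ∈ lamU G, s * t ≠ 0 → s * t ≠ -4 →
      s * A t + κ * t ^ 2 + t * A' s + κ' * s ^ 2 = 0 := by
    intro s hs t ht h0 h4
    have e := star_rel hsplit hx0 hx hs ht h0 h4
    rw [hγ' s hs, hγ t ht] at e
    rw [hAdef, hA'def]
    linear_combination e
  -- κ = 0
  have hκ : κ = 0 := by
    refine kappa_elim h2 b (t₀ / b * t₀) κ hb (mul_ne_zero hs₁0 ht₀) h5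
      (fun h3 => kappa_eq_zero_of_three (lamU G) A κ h2 h3 hAA hut₀ ht₀) ?_
    intro j hj0 hj4 hj4' hκ
    have hjs : (j : k) * (t₀ / b) ∈ lamL G := by
      rw [← nsmul_eq_mul]
      exact (lamL G).nsmul_mem hs₁ j
    have e := star_sym h2 (lamU G) (lamL G) A A' κ κ'
      (fun t ht => A_neg (lamU G) A κ hAA ht) star _ hjs t₀ hut₀
      (by rw [mul_assoc]; exact hj0) (by rw [mul_assoc]; exact hj4)
      (by rw [mul_assoc]; exact hj4')
    rw [hκ'] at e
    have e2 : κ * t₀ ^ 2 * (b * (j : k) ^ 2 - 1) = 0 := by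
      field_simp at e
      linear_combination -e
    rcases mul_eq_zero.mp e2 with h' | h'
    · exact absurd h' (mul_ne_zero hκ (pow_ne_zero 2 ht₀))
    · exact sub_eq_zero.mp h'
  have hκ'0 : κ' = 0 := by rw [hκ', hκ, mul_zero]
  -- A is linear
  obtain ⟨c, hc⟩ := linear_of_star h2 (lamU G) (lamL G) A A'
    (fun s hs t ht => by rw [hAA s hs t ht, hκ]; ring)
    (fun s hs t ht h0 h4 => by
      have e := star s hs t ht h0 h4
      rw [hκ, hκ'0] at e
      linear_combination e) (t₀ / b) hs₁ hs₁0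
  -- the coboundary
  set X₀ : Matrix (Fin 2) (Fin 2) k := !![-c / 2, 0; μ, c / 2] with hX₀
  have hX₀tr : X₀.trace = 0 := by
    rw [hX₀, Matrix.trace_fin_two_of]; ring
  have hU : ∀ u ∈ upperU k ⊓ G, x u - (act u X₀ - X₀) = 0 := by
    rintro u ⟨⟨t, rfl⟩, hu⟩
    have hu' : uu t ∈ G := hu
    have e1 := hγ t hu'
    have e2 := hβ t hu'
    have e3 := hc t hu'
    have e4 := x11_eq hx0 hu'
    rw [hκ] at e1 e2
    rw [hAdef] at e3
    simp only at e3
    rw [sub_eq_zero, act_uu, hX₀]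
    ext i j
    fin_cases i <;> fin_cases j
    · simp
      linear_combination e2
    · simp
      field_simp
      linear_combination 2 * e3 - 2 * t * e2
    · simp
      linear_combination e1
    · simp
      linear_combination e4 - e2
  obtain ⟨Y, hY0, hY⟩ := coc_eq_cob_of_vanish (G := G) (x := fun g => x g - (act g X₀ - X₀))
    (fun g hg g' hg' => by
      rw [hx g hg g' hg', act_mul, map_sub, map_sub]
      abel)
    (fun g hg => by
      rw [Matrix.trace_sub, Matrix.trace_sub, trace_act, hX₀tr, hx0 g hg]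
      ring)
    (upperU k ⊓ G) (by rw [Subgroup.inf_relIndex_right]; exact hidx) hU
  refine ⟨X₀ + Y, by rw [Matrix.trace_add, hX₀tr, hY0, add_zero], fun g hg => ?_⟩
  have e := hY g hg
  rw [map_add]
  calc x g = (x g - (act g X₀ - X₀)) + (act g X₀ - X₀) := by abel
    _ = act g X₀ + act g Y - (X₀ + Y) := by rw [e]; abel

end Core

/-- The conjugate cocycle. -/
def conjx (S : GL (Fin 2) k) (x : GL (Fin 2) k → Matrix (Fin 2) (Fin 2) k) (g : GL (Fin 2) k) :
    Matrix (Fin 2) (Fin 2) k :=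
  ((S⁻¹ : GL (Fin 2) k) : Matrix (Fin 2) (Fin 2) k) * x (S * g * S⁻¹) *
    (S : Matrix (Fin 2) (Fin 2) k)

/-- The conjugate group `S⁻¹ G S`. -/
def conjG (S : GL (Fin 2) k) (G : Subgroup (GL (Fin 2) k)) : Subgroup (GL (Fin 2) k) :=
  G.comap (MulAut.conj S).toMonoidHom

theorem mem_conjG {S : GL (Fin 2) k} {G : Subgroup (GL (Fin 2) k)} {g : GL (Fin 2) k} :
    g ∈ conjG S G ↔ S * g * S⁻¹ ∈ G := Iff.rfl

theorem det_coe_inv_mul (S : GL (Fin 2) k) :
    ((S⁻¹ : GL (Fin 2) k) : Matrix (Fin 2) (Fin 2) k).det * (S : Matrix (Fin 2) (Fin 2) k).det = 1 := by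
  rw [← Matrix.det_mul, coe_inv_mul, Matrix.det_one]

theorem act_conj (S g : GL (Fin 2) k) (M : Matrix (Fin 2) (Fin 2) k) :
    ((S⁻¹ : GL (Fin 2) k) : Matrix (Fin 2) (Fin 2) k) * act (S * g * S⁻¹) M *
      (S : Matrix (Fin 2) (Fin 2) k) =
    act g (((S⁻¹ : GL (Fin 2) k) : Matrix (Fin 2) (Fin 2) k) * M *
      (S : Matrix (Fin 2) (Fin 2) k)) := by
  have e1 : act (S * g * S⁻¹) M =
      ((S : Matrix (Fin 2) (Fin 2) k).det *
        ((S⁻¹ : GL (Fin 2) k) : Matrix (Fin 2) (Fin 2) k).det) •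
      ((S : Matrix (Fin 2) (Fin 2) k) *
        act g (((S⁻¹ : GL (Fin 2) k) : Matrix (Fin 2) (Fin 2) k) * M *
          (S : Matrix (Fin 2) (Fin 2) k)) *
        ((S⁻¹ : GL (Fin 2) k) : Matrix (Fin 2) (Fin 2) k)) := by
    rw [act_mul, act_mul, act_apply S⁻¹, inv_inv, map_smul, act_apply S, Matrix.mul_smul,
      Matrix.smul_mul, smul_smul]
  rw [e1, mul_comm, det_coe_inv_mul, one_smul, ← Matrix.mul_assoc, ← Matrix.mul_assoc,
    coe_inv_mul, Matrix.one_mul, Matrix.mul_assoc, coe_inv_mul, Matrix.mul_one]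

theorem act_conj' (S g : GL (Fin 2) k) (M : Matrix (Fin 2) (Fin 2) k) :
    (S : Matrix (Fin 2) (Fin 2) k) * act (S⁻¹ * g * S) M *
      ((S⁻¹ : GL (Fin 2) k) : Matrix (Fin 2) (Fin 2) k) =
    act g ((S : Matrix (Fin 2) (Fin 2) k) * M *
      ((S⁻¹ : GL (Fin 2) k) : Matrix (Fin 2) (Fin 2) k)) := by
  have h := act_conj S⁻¹ g M
  rwa [inv_inv] at h

section Conj

variable {G : Subgroup (GL (Fin 2) k)} {x : GL (Fin 2) k → Matrix (Fin 2) (Fin 2) k}

theorem conjx_trace (S : GL (Fin 2) k) (hx0 : ∀ g ∈ G, (x g).trace = 0) :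
    ∀ g ∈ conjG S G, (conjx S x g).trace = 0 := by
  intro g hg
  rw [conjx, Matrix.trace_mul_comm, ← Matrix.mul_assoc, coe_mul_inv, Matrix.one_mul]
  exact hx0 _ (mem_conjG.mp hg)

theorem conjx_coc (S : GL (Fin 2) k)
    (hx : ∀ g ∈ G, ∀ g' ∈ G, x (g * g') = x g + act g (x g')) :
    ∀ g ∈ conjG S G, ∀ g' ∈ conjG S G,
      conjx S x (g * g') = conjx S x g + act g (conjx S x g') := by
  intro g hg g' hg'
  have e : S * (g * g') * S⁻¹ = (S * g * S⁻¹) * (S * g' * S⁻¹) := by group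
  rw [conjx, e, hx _ (mem_conjG.mp hg) _ (mem_conjG.mp hg'), mul_add, add_mul, act_conj]
  rfl

theorem conj_split (S : GL (Fin 2) k)
    (hsplit : ∀ g ∈ G, ∃ α β : k,
      (g : Matrix (Fin 2) (Fin 2) k).charpoly = (X - C α) * (X - C β)) :
    ∀ g ∈ conjG S G, ∃ α β : k,
      (g : Matrix (Fin 2) (Fin 2) k).charpoly = (X - C α) * (X - C β) := by
  intro g hg
  obtain ⟨α, β, h⟩ := hsplit _ (mem_conjG.mp hg)
  refine ⟨α, β, ?_⟩
  rw [← h, Units.val_mul, Units.val_mul, Matrix.charpoly_mul_comm, ← Matrix.mul_assoc,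
    coe_inv_mul, Matrix.one_mul]

theorem exists_cob_of_conj (S : GL (Fin 2) k)
    (H : ∃ Y : Matrix (Fin 2) (Fin 2) k, Y.trace = 0 ∧
      ∀ g ∈ conjG S G, conjx S x g = act g Y - Y) :
    ∃ Y : Matrix (Fin 2) (Fin 2) k, Y.trace = 0 ∧ ∀ g ∈ G, x g = act g Y - Y := by
  obtain ⟨Y, hY0, hY⟩ := H
  refine ⟨(S : Matrix (Fin 2) (Fin 2) k) * Y *
    ((S⁻¹ : GL (Fin 2) k) : Matrix (Fin 2) (Fin 2) k), ?_, ?_⟩
  · rw [Matrix.trace_mul_comm, ← Matrix.mul_assoc, coe_inv_mul, Matrix.one_mul, hY0]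
  · intro g hg
    have e : S * (S⁻¹ * g * S) * S⁻¹ = g := by group
    have hg' : S⁻¹ * g * S ∈ conjG S G := by
      rw [mem_conjG, e]; exact hg
    have h1 := hY _ hg'
    rw [conjx, e] at h1
    have h2 : x g = (S : Matrix (Fin 2) (Fin 2) k) *
        (((S⁻¹ : GL (Fin 2) k) : Matrix (Fin 2) (Fin 2) k) * x g *
          (S : Matrix (Fin 2) (Fin 2) k)) *
        ((S⁻¹ : GL (Fin 2) k) : Matrix (Fin 2) (Fin 2) k) := by
      rw [← Matrix.mul_assoc, ← Matrix.mul_assoc, coe_mul_inv, Matrix.one_mul, Matrix.mul_assoc,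
        coe_mul_inv, Matrix.mul_one]
    rw [← act_conj', h2, h1, Matrix.mul_sub, Matrix.sub_mul]

end Conj

theorem mulVec_e1 (M : Matrix (Fin 2) (Fin 2) k) : M.mulVec ![1, 0] = ![M 0 0, M 1 0] := by
  ext i
  fin_cases i <;> simp [Matrix.mulVec, dotProduct, Fin.sum_univ_two]

theorem mulVec_e2 (M : Matrix (Fin 2) (Fin 2) k) : M.mulVec ![0, 1] = ![M 0 1, M 1 1] := by
  ext i
  fin_cases i <;> simp [Matrix.mulVec, dotProduct, Fin.sum_univ_two]

theorem eq_uu_of_fix (g : GL (Fin 2) k)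
    (hfix : (g : Matrix (Fin 2) (Fin 2) k).mulVec ![1, 0] = ![1, 0])
    (hdet : (g : Matrix (Fin 2) (Fin 2) k).det = 1) :
    g = uu ((g : Matrix (Fin 2) (Fin 2) k) 0 1) := by
  rw [mulVec_e1] at hfix
  have h00 : (g : Matrix (Fin 2) (Fin 2) k) 0 0 = 1 := by
    simpa using congrFun hfix 0
  have h10 : (g : Matrix (Fin 2) (Fin 2) k) 1 0 = 0 := by
    simpa using congrFun hfix 1
  rw [Matrix.det_fin_two, h00, h10, mul_zero, sub_zero, one_mul] at hdet
  apply Units.ext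
  rw [coe_uu]
  conv_lhs => rw [Matrix.eta_fin_two (g : Matrix (Fin 2) (Fin 2) k), h00, h10, hdet]

theorem conj_mulVec (S g : GL (Fin 2) k) (v w : Fin 2 → k)
    (hv : (g : Matrix (Fin 2) (Fin 2) k).mulVec ((S : Matrix (Fin 2) (Fin 2) k).mulVec v) =
      (S : Matrix (Fin 2) (Fin 2) k).mulVec w) :
    ((S⁻¹ * g * S : GL (Fin 2) k) : Matrix (Fin 2) (Fin 2) k).mulVec v = w := by
  rw [Units.val_mul, Units.val_mul, ← Matrix.mulVec_mulVec, ← Matrix.mulVec_mulVec, hv,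
    Matrix.mulVec_mulVec, coe_inv_mul, Matrix.one_mulVec]

set_option linter.style.haveILetI false in
theorem exists_fixed_vector [Fintype k] (p : ℕ) [Fact p.Prime] [CharP k p]
    (P : Subgroup (GL (Fin 2) k)) (hP : IsPGroup p P) :
    ∃ v : Fin 2 → k, v ≠ 0 ∧ ∀ g ∈ P, (g : Matrix (Fin 2) (Fin 2) k).mulVec v = v := by
  letI : MulAction P (Fin 2 → k) :=
    { smul := fun g v => ((g : GL (Fin 2) k) : Matrix (Fin 2) (Fin 2) k).mulVec v
      one_smul := fun v => by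
        change (((1 : P) : GL (Fin 2) k) : Matrix (Fin 2) (Fin 2) k).mulVec v = v
        simp
      mul_smul := fun g h v => by
        change (((g * h : P) : GL (Fin 2) k) : Matrix (Fin 2) (Fin 2) k).mulVec v =
          ((g : GL (Fin 2) k) : Matrix (Fin 2) (Fin 2) k).mulVec
            (((h : GL (Fin 2) k) : Matrix (Fin 2) (Fin 2) k).mulVec v)
        rw [Subgroup.coe_mul, Units.val_mul, Matrix.mulVec_mulVec] }
  have hcard : p ∣ Nat.card (Fin 2 → k) := by
    rw [Nat.card_eq_fintype_card, Fintype.card_fun, Fintype.card_fin]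
    exact dvd_pow ((CharP.cast_eq_zero_iff k p _).mp (Nat.cast_card_eq_zero k)) two_ne_zero
  obtain ⟨v, hv, hv0⟩ := hP.exists_fixed_point_of_prime_dvd_card_of_fixed_point
    (α := Fin 2 → k) hcard (a := 0) (by
      intro g
      change ((g : GL (Fin 2) k) : Matrix (Fin 2) (Fin 2) k).mulVec 0 = 0
      simp)
  exact ⟨v, fun h => hv0 h.symm, fun g hg => hv ⟨g, hg⟩⟩

theorem det_eq_one_of_pow (p : ℕ) [Fact p.Prime] [CharP k p] (u : GL (Fin 2) k) (n : ℕ)
    (hu : u ^ p ^ n = 1) : (u : Matrix (Fin 2) (Fin 2) k).det = 1 := by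
  have h1 : (u : Matrix (Fin 2) (Fin 2) k).det ^ p ^ n = 1 := by
    rw [← Matrix.det_pow, ← Units.val_pow_eq_pow_val, hu, Units.val_one, Matrix.det_one]
  have h2 : ((u : Matrix (Fin 2) (Fin 2) k).det - 1) ^ p ^ n = 0 := by
    rw [sub_pow_char_pow, h1, one_pow, sub_self]
  exact sub_eq_zero.mp (pow_eq_zero_iff (pow_ne_zero n (Fact.out : p.Prime).ne_zero) |>.mp h2)

theorem exists_basis_matrix (e1 e2 : Fin 2 → k) (he1 : e1 ≠ 0) (hmove : ∀ a : k, e2 ≠ a • e1) :
    ∃ S : GL (Fin 2) k, (S : Matrix (Fin 2) (Fin 2) k).mulVec ![1, 0] = e1 ∧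
      (S : Matrix (Fin 2) (Fin 2) k).mulVec ![0, 1] = e2 := by
  have hdet : (!![e1 0, e2 0; e1 1, e2 1] : Matrix (Fin 2) (Fin 2) k).det ≠ 0 := by
    rw [Matrix.det_fin_two_of]
    intro h0
    by_cases h10 : e1 0 = 0
    · have h11 : e1 1 ≠ 0 := by
        intro h11
        apply he1
        ext i
        fin_cases i
        · exact h10
        · exact h11
      have h20 : e2 0 = 0 := by
        rw [h10, zero_mul, zero_sub, neg_eq_zero] at h0
        exact (mul_eq_zero.mp h0).resolve_right h11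
      apply hmove (e2 1 / e1 1)
      ext i
      fin_cases i
      · simp [h10, h20]
      · simp
        field_simp
    · apply hmove (e2 0 / e1 0)
      ext i
      fin_cases i
      · simp
        field_simp
      · simp
        field_simp
        linear_combination h0
  refine ⟨Matrix.GeneralLinearGroup.mkOfDetNeZero _ hdet, ?_, ?_⟩
  · rw [mulVec_e1, Matrix.GeneralLinearGroup.val_mkOfDetNeZero]
    ext i
    fin_cases i <;> simp
  · rw [mulVec_e2, Matrix.GeneralLinearGroup.val_mkOfDetNeZero]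
    ext i
    fin_cases i <;> simp

/-- The main theorem with the hypotheses in simplified form. -/
theorem main_aux [Fintype k] (p : ℕ) [Fact p.Prime] [CharP k p] (h2 : (2 : k) ≠ 0)
    (G : Subgroup (GL (Fin 2) k))
    (hsplit : ∀ g ∈ G, ∃ α β : k,
      (g : Matrix (Fin 2) (Fin 2) k).charpoly = (X - C α) * (X - C β))
    (hirr : ∀ v : Fin 2 → k, v ≠ 0 →
      ∃ g ∈ G, ∀ a : k, (g : Matrix (Fin 2) (Fin 2) k).mulVec v ≠ a • v)
    (hdet5 : (5 : k) = 0 → ∃ g ∈ G, (g : Matrix (Fin 2) (Fin 2) k).det ^ 2 ≠ 1)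
    (x : GL (Fin 2) k → Matrix (Fin 2) (Fin 2) k) (hx0 : ∀ g ∈ G, (x g).trace = 0)
    (hx : ∀ g ∈ G, ∀ g' ∈ G, x (g * g') = x g + act g (x g')) :
    ∃ Y : Matrix (Fin 2) (Fin 2) k, Y.trace = 0 ∧ ∀ g ∈ G, x g = act g Y - Y := by
  classical
  by_cases hpG : p ∣ Nat.card G
  swap
  · refine coc_eq_cob_of_vanish hx hx0 ⊥ ?_ ?_
    · rw [Subgroup.relIndex_bot_left]
      exact fun h => hpG ((CharP.cast_eq_zero_iff k p _).mp h)
    · intro u hu
      rw [Subgroup.mem_bot.mp hu]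
      exact coc_one hx
  -- a Sylow subgroup
  obtain ⟨P⟩ : Nonempty (Sylow p G) := inferInstance
  set P' : Subgroup (GL (Fin 2) k) := (P : Subgroup G).map G.subtype with hP'
  have hP'G : P' ≤ G := by
    rintro _ ⟨u, -, rfl⟩
    exact u.2
  have hP'p : IsPGroup p P' := P.isPGroup'.map G.subtype
  have hP'ne : ∃ u ∈ P', u ≠ 1 := by
    have h1 := P.ne_bot_of_dvd_card hpG
    obtain ⟨u, hu⟩ := (Subgroup.ne_bot_iff_exists_ne_one).mp h1
    refine ⟨((u : G) : GL (Fin 2) k), ⟨(u : G), u.2, rfl⟩, ?_⟩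
    intro h
    apply hu
    apply Subtype.ext
    apply Subtype.ext
    exact h
  have hP'idx : ¬ p ∣ P'.relIndex G := by
    have h1 : P'.relIndex G = (P : Subgroup G).index := by
      rw [Subgroup.relIndex, Subgroup.subgroupOf,
        Subgroup.comap_map_eq_self_of_injective (Subgroup.subtype_injective G)]
    rw [h1]
    exact P.not_dvd_index
  -- the fixed vector
  obtain ⟨e1, he1, hfix⟩ := exists_fixed_vector p P' hP'p
  have hdetP : ∀ u ∈ P', (u : Matrix (Fin 2) (Fin 2) k).det = 1 := by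
    intro u hu
    obtain ⟨n, hn⟩ := hP'p ⟨u, hu⟩
    refine det_eq_one_of_pow p u n ?_
    have h1 := congrArg (Subtype.val) hn
    simpa using h1
  -- the element moving the line
  obtain ⟨h, hhG, hmove, h5⟩ : ∃ h ∈ G,
      (∀ a : k, (h : Matrix (Fin 2) (Fin 2) k).mulVec e1 ≠ a • e1) ∧
      ((5 : k) ≠ 0 ∨ (h : Matrix (Fin 2) (Fin 2) k).det ^ 2 ≠ 1) := by
    obtain ⟨h₁, hh₁, hm₁⟩ := hirr e1 he1
    by_cases h50 : (5 : k) = 0
    swap
    · exact ⟨h₁, hh₁, hm₁, Or.inl h50⟩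
    by_cases hd₁ : (h₁ : Matrix (Fin 2) (Fin 2) k).det ^ 2 = 1
    swap
    · exact ⟨h₁, hh₁, hm₁, Or.inr hd₁⟩
    obtain ⟨g₀, hg₀, hd₀⟩ := hdet5 h50
    by_cases hm₀ : ∃ a : k, (g₀ : Matrix (Fin 2) (Fin 2) k).mulVec e1 = a • e1
    swap
    · exact ⟨g₀, hg₀, fun a ha => hm₀ ⟨a, ha⟩, Or.inr hd₀⟩
    obtain ⟨a, ha⟩ := hm₀
    have ha0 : a ≠ 0 := by
      intro h0
      rw [h0, zero_smul] at ha
      apply he1
      have h1 := congrArg (((g₀⁻¹ : GL (Fin 2) k) : Matrix (Fin 2) (Fin 2) k).mulVec) ha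
      rwa [Matrix.mulVec_mulVec, coe_inv_mul, Matrix.one_mulVec, Matrix.mulVec_zero] at h1
    refine ⟨h₁ * g₀, G.mul_mem hh₁ hg₀, ?_, Or.inr ?_⟩
    · intro c hc
      rw [Units.val_mul, ← Matrix.mulVec_mulVec, ha, Matrix.mulVec_smul] at hc
      apply hm₁ (a⁻¹ * c)
      rw [← smul_smul, ← hc, smul_smul, inv_mul_cancel₀ ha0, one_smul]
    · rw [Units.val_mul, Matrix.det_mul, mul_pow, hd₁, one_mul]
      exact hd₀
  -- the change of basis
  obtain ⟨S, hS1, hS2⟩ := exists_basis_matrix e1 ((h : Matrix (Fin 2) (Fin 2) k).mulVec e1) he1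
    hmove
  apply exists_cob_of_conj S
  -- elements of `P'` become upper unipotent
  have hPU : ∀ u ∈ P', ∃ t : k, S⁻¹ * u * S = uu t := by
    intro u hu
    refine ⟨_, eq_uu_of_fix _ ?_ ?_⟩
    · apply conj_mulVec
      rw [hS1, hfix u hu]
    · rw [Units.val_mul, Units.val_mul, Matrix.det_mul, Matrix.det_mul, hdetP u hu, mul_one,
        det_coe_inv_mul]
  have hconjmem : ∀ u ∈ G, S⁻¹ * u * S ∈ conjG S G := by
    intro u hu
    rw [mem_conjG]
    have e : S * (S⁻¹ * u * S) * S⁻¹ = u := by group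
    rw [e]
    exact hu
  -- t₀
  obtain ⟨u₀, hu₀, hu₀1⟩ := hP'ne
  obtain ⟨t₀, ht₀⟩ := hPU u₀ hu₀
  have ht₀0 : t₀ ≠ 0 := by
    intro h0
    rw [h0, uu_zero] at ht₀
    apply hu₀1
    have e : u₀ = S * (S⁻¹ * u₀ * S) * S⁻¹ := by group
    rw [e, ht₀]
    group
  have hut₀ : uu t₀ ∈ conjG S G := by
    rw [← ht₀]
    exact hconjmem u₀ (hP'G hu₀)
  -- h
  have hh' : S⁻¹ * h * S ∈ conjG S G := hconjmem h hhG
  have hcol : ((S⁻¹ * h * S : GL (Fin 2) k) : Matrix (Fin 2) (Fin 2) k).mulVec ![1, 0] =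
      ![0, 1] := by
    apply conj_mulVec
    rw [hS1, hS2]
  rw [mulVec_e1] at hcol
  have h00 : ((S⁻¹ * h * S : GL (Fin 2) k) : Matrix (Fin 2) (Fin 2) k) 0 0 = 0 := by
    simpa using congrFun hcol 0
  have h10 : ((S⁻¹ * h * S : GL (Fin 2) k) : Matrix (Fin 2) (Fin 2) k) 1 0 = 1 := by
    simpa using congrFun hcol 1
  have hmat : ((S⁻¹ * h * S : GL (Fin 2) k) : Matrix (Fin 2) (Fin 2) k) =
      !![0, ((S⁻¹ * h * S : GL (Fin 2) k) : Matrix (Fin 2) (Fin 2) k) 0 1; 1,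
        ((S⁻¹ * h * S : GL (Fin 2) k) : Matrix (Fin 2) (Fin 2) k) 1 1] := by
    conv_lhs => rw [Matrix.eta_fin_two ((S⁻¹ * h * S : GL (Fin 2) k) : Matrix (Fin 2) (Fin 2) k),
      h00, h10]
  have hdeth : ((S⁻¹ * h * S : GL (Fin 2) k) : Matrix (Fin 2) (Fin 2) k).det =
      (h : Matrix (Fin 2) (Fin 2) k).det := by
    rw [Units.val_mul, Units.val_mul, Matrix.det_mul, Matrix.det_mul, mul_right_comm,
      det_coe_inv_mul, one_mul]
  have hdetb : (h : Matrix (Fin 2) (Fin 2) k).det =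
      -((S⁻¹ * h * S : GL (Fin 2) k) : Matrix (Fin 2) (Fin 2) k) 0 1 := by
    rw [← hdeth, Matrix.det_fin_two, h00, h10]
    ring
  have hb : ((S⁻¹ * h * S : GL (Fin 2) k) : Matrix (Fin 2) (Fin 2) k) 0 1 ≠ 0 := by
    intro h0
    rw [h0, neg_zero] at hdetb
    have h1 := det_coe_inv_mul h
    rw [hdetb, mul_zero] at h1
    exact zero_ne_one h1
  have h5' : (5 : k) ≠ 0 ∨
      ((S⁻¹ * h * S : GL (Fin 2) k) : Matrix (Fin 2) (Fin 2) k) 0 1 ^ 2 ≠ 1 := by
    rcases h5 with h5 | h5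
    · exact Or.inl h5
    · right
      rw [hdetb, neg_sq] at h5
      exact h5
  -- the index
  have hidx : (((upperU k).relIndex (conjG S G) : ℕ) : k) ≠ 0 := by
    intro h0
    apply hP'idx
    have h1 := (CharP.cast_eq_zero_iff k p _).mp h0
    have hle : P'.comap (MulAut.conj S).toMonoidHom ≤ upperU k ⊓ conjG S G := by
      intro g hg
      have hg' : S * g * S⁻¹ ∈ P' := hg
      refine ⟨?_, ?_⟩
      · obtain ⟨t, ht⟩ := hPU _ hg'
        refine ⟨t, ?_⟩
        rw [← ht]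
        group
      · exact mem_conjG.mpr (hP'G hg')
    have h3 : (P'.comap (MulAut.conj S).toMonoidHom).relIndex (conjG S G) = P'.relIndex G := by
      rw [Subgroup.relIndex_comap, conjG,
        Subgroup.map_comap_eq_self_of_surjective (MulAut.conj S).surjective]
    rw [← h3]
    refine dvd_trans h1 ?_
    rw [← Subgroup.inf_relIndex_right]
    exact Subgroup.relIndex_dvd_of_le_left _ hle
  exact core h2 (conj_split S hsplit) (conjx_trace S hx0) (conjx_coc S hx) t₀ ht₀0 hut₀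
    (S⁻¹ * h * S) hh' _ _ hb hmat h5' hidx

end Fermat.Agent.TW.Dickson

namespace Fermat.Agent.TW

open Fermat.Agent.S53 IsLocalRing Polynomial

variable {k : Type} [Field k]

set_option linter.unusedVariables false in
/-- **Vanishing of `H¹(G, ad⁰ ⊗ det)`** for a finite subgroup `G ⊂ GL₂(k)` (`k` a finite field of
odd characteristic `p`) with split characteristic polynomials, `det G = 𝔽_p^×`, acting
irreducibly on the plane.  The proof is elementary and does not use Dickson's classification. -/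
theorem finite_group_H1_vanish [Finite k] (p : ℕ) [Fact p.Prime] (hp2 : p ≠ 2) (hk : (p : k) = 0) (G : Subgroup (GL (Fin 2) k))
    (hdet : ∀ g ∈ G, (g : Mat2 k).det ^ (p - 1) = 1) (hsurj : ∀ a : k, a ^ (p - 1) = 1 → ∃ g ∈ G, (g : Mat2 k).det = a)
    (hsplit : ∀ g ∈ G, ∃ α β : k, (g : Mat2 k).charpoly = (X - C α) * (X - C β))
    (hirr : ∀ (K : Type) [Field K] [Algebra k K] (H : Subgroup (GL (Fin 2) k)), H ≤ G → (H.subgroupOf G).index = 1 ∨ (H.subgroupOf G).index = 2 →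
      ∀ v : Fin 2 → K, (∀ g ∈ H, ∃ a : K, ((g : Mat2 k).map (algebraMap k K)).mulVec v = a • v) → v = 0)
    (x : GL (Fin 2) k → Mat2 k) (hx0 : ∀ g ∈ G, (x g).trace = 0)
    (hx : ∀ g ∈ G, ∀ g' ∈ G, x (g * g') = x g + (g : Mat2 k).det • ((g : Mat2 k) * x g' * ((g⁻¹ : GL (Fin 2) k) : Mat2 k))) :
    ∃ X : Mat2 k, X.trace = 0 ∧ ∀ g ∈ G, x g = (g : Mat2 k).det • ((g : Mat2 k) * X * ((g⁻¹ : GL (Fin 2) k) : Mat2 k)) - X := by
  classical
  have hp : p.Prime := Fact.out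
  have : Fintype k := Fintype.ofFinite k
  have : CharP k p := (CharP.charP_iff_prime_eq_zero hp).mpr hk
  have h2 : (2 : k) ≠ 0 := by
    intro h
    have h' : ((2 : ℕ) : k) = 0 := by exact_mod_cast h
    have h'' := (CharP.cast_eq_zero_iff k p 2).mp h'
    exact hp2 ((Nat.prime_dvd_prime_iff_eq hp Nat.prime_two).mp h'')
  refine Dickson.main_aux p h2 G hsplit ?_ ?_ x hx0 hx
  · intro v hv
    by_contra hcon
    apply hv
    refine hirr k G le_rfl (Or.inl ?_) v ?_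
    · rw [Subgroup.subgroupOf_self, Subgroup.index_top]
    · intro g hg
      by_contra hg'
      apply hcon
      refine ⟨g, hg, fun a ha => hg' ⟨a, ?_⟩⟩
      rw [← ha]
      congr 1
  · intro h5
    have h5' : ((5 : ℕ) : k) = 0 := by exact_mod_cast h5
    have hp5 : p = 5 := (Nat.prime_dvd_prime_iff_eq hp (by norm_num)).mp
      ((CharP.cast_eq_zero_iff k p 5).mp h5')
    obtain ⟨g, hg, hgd⟩ := hsurj 2 (by
      rw [hp5]
      linear_combination (3 : k) * h5)
    refine ⟨g, hg, ?_⟩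
    rw [hgd]
    intro h4
    apply h2
    linear_combination h5 - h4

end Fermat.Agent.TW
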