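/-
TW (S56), task TW-R8: elementary lemmas on `2 × 2` matrices over a field.
-/
import Mathlib
import Fermat.Agent.TW.Defs

set_option autoImplicit false

namespace Fermat.Agent.TW.Grp

open Fermat.Agent.S53 Matrix

variable {F : Type} [Field F]

/-- Cayley–Hamilton for `2 × 2` matrices. -/
theorem mul_self_eq (M : Mat2 F) : M * M = M.trace • M - M.det • (1 : Mat2 F) := by
  ext i j
  fin_cases i <;> fin_cases j <;>
    simp [Matrix.mul_apply, Fin.sum_univ_two, Matrix.trace_fin_two, Matrix.det_fin_two] <;> ring

/-- `N M N = tr(N M) N - det(N) adj(M)` for `2 × 2` matrices. -/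
theorem mul_mul_self_eq (N M : Mat2 F) :
    N * M * N = (N * M).trace • N - N.det • M.adjugate := by
  rw [Matrix.adjugate_fin_two]
  ext i j
  fin_cases i <;> fin_cases j <;>
    simp [Matrix.mul_apply, Fin.sum_univ_two, Matrix.trace_fin_two, Matrix.det_fin_two] <;> ring

/-- A trace-zero matrix squares to a scalar. -/
theorem mul_self_of_trace_eq_zero {M : Mat2 F} (h : M.trace = 0) :
    M * M = (-M.det) • (1 : Mat2 F) := by
  rw [mul_self_eq, h, zero_smul, zero_sub, neg_smul]

theorem det_add_smul_one (M : Mat2 F) (c : F) :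
    (M + c • (1 : Mat2 F)).det = M.det + c * M.trace + c * c := by
  simp [Matrix.det_fin_two, Matrix.trace_fin_two]
  ring

theorem trace_add_smul_one (M : Mat2 F) (c : F) :
    (M + c • (1 : Mat2 F)).trace = M.trace + 2 * c := by
  simp [Matrix.trace_fin_two]
  ring

theorem exists_col_ne_zero {M : Mat2 F} (hM : M ≠ 0) : ∃ j, M.col j ≠ 0 := by
  by_contra h
  push Not at h
  apply hM
  ext i j
  have := congrFun (h j) i
  simpa using this

/-- Two vectors in the plane with vanishing cross product are proportional. -/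
theorem exists_smul_of_cross {u v : Fin 2 → F} (hv : v ≠ 0) (h : u 0 * v 1 = u 1 * v 0) :
    ∃ a : F, u = a • v := by
  by_cases h0 : v 0 = 0
  · have h1 : v 1 ≠ 0 := by
      intro h1
      apply hv
      funext i
      fin_cases i
      · exact h0
      · exact h1
    refine ⟨u 1 / v 1, ?_⟩
    funext i
    fin_cases i
    · simp only [Fin.zero_eta, Pi.smul_apply, smul_eq_mul]
      rw [h0, mul_zero] at h ⊢
      rcases mul_eq_zero.mp h with h | h
      · exact h
      · exact absurd h h1
    · simp only [Fin.mk_one, Pi.smul_apply, smul_eq_mul]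
      field_simp
  · refine ⟨u 0 / v 0, ?_⟩
    funext i
    fin_cases i
    · simp only [Fin.zero_eta, Pi.smul_apply, smul_eq_mul]
      field_simp
    · simp only [Fin.mk_one, Pi.smul_apply, smul_eq_mul]
      field_simp
      linear_combination -h

/-- The column space of a singular `2 × 2` matrix is spanned by any nonzero column. -/
theorem mulVec_eq_smul_col {N : Mat2 F} (hN : N.det = 0) {j : Fin 2} (hv : N.col j ≠ 0)
    (w : Fin 2 → F) : ∃ a : F, N *ᵥ w = a • N.col j := by
  apply exists_smul_of_cross hv
  rw [Matrix.det_fin_two] at hN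
  fin_cases j
  · simp only [Matrix.mulVec, dotProduct, Fin.sum_univ_two, Matrix.col_apply, Fin.zero_eta]
    linear_combination (-w 1) * hN
  · simp only [Matrix.mulVec, dotProduct, Fin.sum_univ_two, Matrix.col_apply, Fin.mk_one]
    linear_combination (w 0) * hN

/-- The kernel of a nonzero `2 × 2` matrix is at most a line. -/
theorem exists_smul_of_mulVec_eq_zero {M : Mat2 F} (hM : M ≠ 0) {v w : Fin 2 → F} (hv : v ≠ 0)
    (h1 : M *ᵥ v = 0) (h2 : M *ᵥ w = 0) : ∃ a : F, w = a • v := by
  apply exists_smul_of_cross hv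
  have hne : ∃ i j, M i j ≠ 0 := by
    by_contra h
    push Not at h
    exact hM (by ext i j; exact h i j)
  obtain ⟨i, j, hij⟩ := hne
  have e1 := congrFun h1 i
  have e2 := congrFun h2 i
  simp only [Matrix.mulVec, dotProduct, Fin.sum_univ_two, Pi.zero_apply] at e1 e2
  have hD0 : M i 0 * (w 0 * v 1 - w 1 * v 0) = 0 := by
    linear_combination (v 1) * e2 - (w 1) * e1
  have hD1 : M i 1 * (w 0 * v 1 - w 1 * v 0) = 0 := by
    linear_combination (w 0) * e1 - (v 0) * e2
  have hD : w 0 * v 1 - w 1 * v 0 = 0 := by
    fin_cases j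
    · exact (mul_eq_zero.mp hD0).resolve_left hij
    · exact (mul_eq_zero.mp hD1).resolve_left hij
  exact sub_eq_zero.mp hD

/-- If `M N = c N M` with `N` singular, then `M` maps a nonzero column of `N` to a multiple of
itself. -/
theorem mulVec_col_of_semicomm {N M : Mat2 F} (hN : N.det = 0) {j : Fin 2} (c : F)
    (h : M * N = c • (N * M)) (hv : N.col j ≠ 0) : ∃ a : F, M *ᵥ N.col j = a • N.col j := by
  have e : M *ᵥ N.col j = c • (N *ᵥ (M *ᵥ Pi.single j 1)) := by
    rw [← Matrix.mulVec_single_one, Matrix.mulVec_mulVec, h, Matrix.smul_mulVec,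
      ← Matrix.mulVec_mulVec]
  obtain ⟨a, ha⟩ := mulVec_eq_smul_col hN hv (M *ᵥ Pi.single j 1)
  exact ⟨c * a, by rw [e, ha, smul_smul]⟩

/-- In `sl₂` (characteristic `≠ 2`), commuting elements are proportional. -/
theorem exists_smul_of_commute {X Y : Mat2 F} (h2 : (2 : F) ≠ 0) (hX : X.trace = 0)
    (hY : Y.trace = 0) (hX0 : X ≠ 0) (h : X * Y = Y * X) : ∃ c : F, Y = c • X := by
  rw [Matrix.trace_fin_two] at hX hY
  have hX11 : X 1 1 = -X 0 0 := by linear_combination hX
  have hY11 : Y 1 1 = -Y 0 0 := by linear_combination hY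
  have e00 := congrFun (congrFun h 0) 0
  have e01 := congrFun (congrFun h 0) 1
  have e10 := congrFun (congrFun h 1) 0
  simp only [Matrix.mul_apply, Fin.sum_univ_two, hX11, hY11] at e00 e01 e10
  have m1 : X 0 1 * Y 1 0 = X 1 0 * Y 0 1 := by linear_combination e00
  have m2 : X 0 0 * Y 0 1 = X 0 1 * Y 0 0 := by
    have : 2 * (X 0 0 * Y 0 1 - X 0 1 * Y 0 0) = 0 := by linear_combination e01
    have := (mul_eq_zero.mp this).resolve_left h2
    linear_combination this
  have m3 : X 1 0 * Y 0 0 = X 0 0 * Y 1 0 := by
    have : 2 * (X 1 0 * Y 0 0 - X 0 0 * Y 1 0) = 0 := by linear_combination e10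
    have := (mul_eq_zero.mp this).resolve_left h2
    linear_combination this
  by_cases ha : X 0 0 = 0
  · by_cases hb : X 0 1 = 0
    · have hc : X 1 0 ≠ 0 := by
        intro hc
        apply hX0
        ext i j
        fin_cases i <;> fin_cases j
        · exact ha
        · exact hb
        · exact hc
        · simpa [ha] using hX11
      refine ⟨Y 1 0 / X 1 0, ?_⟩
      ext i j
      fin_cases i <;> fin_cases j <;> simp only [Fin.zero_eta, Fin.mk_one, Matrix.smul_apply,
        smul_eq_mul, hX11, hY11]
      · rw [ha, mul_zero]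
        rw [ha, zero_mul] at m3
        exact (mul_eq_zero.mp m3).resolve_left hc
      · rw [hb, mul_zero]
        rw [hb, zero_mul] at m1
        exact (mul_eq_zero.mp m1.symm).resolve_left hc
      · field_simp
      · rw [ha, neg_zero, mul_zero, neg_eq_zero]
        rw [ha, zero_mul] at m3
        exact (mul_eq_zero.mp m3).resolve_left hc
    · refine ⟨Y 0 1 / X 0 1, ?_⟩
      ext i j
      fin_cases i <;> fin_cases j <;> simp only [Fin.zero_eta, Fin.mk_one, Matrix.smul_apply,
        smul_eq_mul, hX11, hY11]
      · field_simp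
        linear_combination -m2
      · field_simp
      · field_simp
        linear_combination m1
      · field_simp
        linear_combination m2
  · refine ⟨Y 0 0 / X 0 0, ?_⟩
    ext i j
    fin_cases i <;> fin_cases j <;> simp only [Fin.zero_eta, Fin.mk_one, Matrix.smul_apply,
      smul_eq_mul, hX11, hY11]
    · field_simp
    · field_simp
      linear_combination m2
    · field_simp
      linear_combination -m3
    · field_simp

end Fermat.Agent.TW.Grp
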