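/-
TW (S56), task TW-R8: no stable line in `sl₂`, and irreducibility of `sl₂` under the adjoint
action of the image of the residual representation.
-/
import Mathlib
import Fermat.Agent.TW.Defs
import Fermat.Agent.TW.Hyp
import Fermat.Agent.TW.Group.Mat

set_option autoImplicit false

namespace Fermat.Agent.TW

open Fermat.Agent.S53 IsLocalRing Polynomial Matrix

variable {k : Type} [Field k]

namespace Grp

theorem two_ne_zero_of_hyp {rb : GQ →* Mat2 k} {p : ℕ} [Fact p.Prime] (hp2 : p ≠ 2)
    (h : ResidualHyp rb p) : (2 : k) ≠ 0 := by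
  intro h2
  have hp : p.Prime := Fact.out
  have hodd : p % 2 = 1 := by
    rcases hp.eq_two_or_odd with h' | h'
    · exact absurd h' hp2
    · exact h'
  have hpk := h.charP
  have e : (p : k) = ((2 * (p / 2) + 1 : ℕ) : k) := by
    congr 1
    omega
  rw [e] at hpk
  push_cast at hpk
  rw [h2, zero_mul, zero_add] at hpk
  exact one_ne_zero hpk

theorem rb_mul_inv (rb : GQ →* Mat2 k) (σ : GQ) : rb σ * rb σ⁻¹ = 1 := by
  rw [← map_mul, mul_inv_cancel, map_one]

theorem rb_inv_mul (rb : GQ →* Mat2 k) (σ : GQ) : rb σ⁻¹ * rb σ = 1 := by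
  rw [← map_mul, inv_mul_cancel, map_one]

/-- No common eigenvector over `k` for the whole group. -/
theorem irr_base {rb : GQ →* Mat2 k} {p : ℕ} (h : ResidualHyp rb p) (v : Fin 2 → k)
    (hv : ∀ σ : GQ, ∃ a : k, rb σ *ᵥ v = a • v) : v = 0 := by
  refine h.irr k ⊤ (Or.inl Subgroup.index_top) v fun σ _ => ?_
  obtain ⟨a, ha⟩ := hv σ
  refine ⟨a, ?_⟩
  have e : (rb σ).map (algebraMap k k) = rb σ := by
    ext i j
    simp
  rw [e, ha]

/-- The conjugation relation in commutation form. -/
theorem semicomm_of_conj {rb : GQ →* Mat2 k} {σ : GQ} {X : Mat2 k} {c : k}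
    (h : rb σ * X * rb σ⁻¹ = c • X) : rb σ * X = c • (X * rb σ) := by
  have e : rb σ * X * rb σ⁻¹ * rb σ = c • X * rb σ := by rw [h]
  rw [mul_assoc, rb_inv_mul, mul_one, Matrix.smul_mul] at e
  exact e

/-- **No stable line in `sl₂`**: a nonzero trace-zero matrix is not an eigenvector of the
conjugation action of the whole group. -/
theorem no_stable_line (rb : GQ →* Mat2 k) (p : ℕ) [Fact p.Prime] (hp2 : p ≠ 2)
    (h : ResidualHyp rb p) (X : Mat2 k) (hX0 : X ≠ 0) (hXtr : X.trace = 0)
    (hst : ∀ σ : GQ, ∃ c : k, rb σ * X * rb σ⁻¹ = c • X) : False := by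
  have h2 : (2 : k) ≠ 0 := two_ne_zero_of_hyp hp2 h
  by_cases hδ : X.det = 0
  · -- nilpotent case: a common eigenvector over `k`
    obtain ⟨j, hj⟩ := exists_col_ne_zero hX0
    refine hj (irr_base h _ fun σ => ?_)
    obtain ⟨c, hc⟩ := hst σ
    exact mulVec_col_of_semicomm hδ c (semicomm_of_conj hc) hj
  · -- semisimple case: a common eigenvector over the algebraic closure on the centraliser
    have hsq : X * X = (-X.det) • (1 : Mat2 k) := mul_self_of_trace_eq_zero hXtr
    -- every element commutes or anticommutes with `X`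
    have hpm : ∀ σ : GQ, rb σ * X = X * rb σ ∨ rb σ * X = -(X * rb σ) := by
      intro σ
      obtain ⟨c, hc⟩ := hst σ
      have e1 : (rb σ * X * rb σ⁻¹) * (rb σ * X * rb σ⁻¹) = (-X.det) • (1 : Mat2 k) := by
        have : (rb σ * X * rb σ⁻¹) * (rb σ * X * rb σ⁻¹) =
            rb σ * (X * (rb σ⁻¹ * rb σ) * X) * rb σ⁻¹ := by
          simp only [mul_assoc]
        rw [this, rb_inv_mul, mul_one, hsq, Matrix.mul_smul, Matrix.smul_mul, mul_one,
          rb_mul_inv]
      rw [hc, Matrix.smul_mul, Matrix.mul_smul, hsq, smul_smul, smul_smul] at e1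
      have e2 := congrFun (congrFun e1 0) 0
      simp only [Matrix.smul_apply, Matrix.one_apply_eq, smul_eq_mul, mul_one] at e2
      have e3 : (c * c - 1) * X.det = 0 := by linear_combination -e2
      have e4 : (c - 1) * (c + 1) = 0 := by
        have := (mul_eq_zero.mp e3).resolve_right hδ
        linear_combination this
      have hs := semicomm_of_conj hc
      rcases mul_eq_zero.mp e4 with h1 | h1
      · left
        rw [hs, sub_eq_zero.mp h1, one_smul]
      · right
        rw [hs, eq_neg_of_add_eq_zero_left h1, neg_smul, one_smul]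
    -- the centraliser of `X`
    let G₀ : Subgroup GQ :=
      { carrier := {σ | rb σ * X = X * rb σ}
        mul_mem' := by
          intro a b ha hb
          show rb (a * b) * X = X * rb (a * b)
          have ha : rb a * X = X * rb a := ha
          have hb : rb b * X = X * rb b := hb
          rw [map_mul, mul_assoc, hb, ← mul_assoc, ha, mul_assoc]
        one_mem' := by
          show rb 1 * X = X * rb 1
          rw [map_one, one_mul, mul_one]
        inv_mem' := by
          intro a ha
          show rb a⁻¹ * X = X * rb a⁻¹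
          have ha : rb a * X = X * rb a := ha
          have : rb a⁻¹ * (rb a * X) * rb a⁻¹ = rb a⁻¹ * (X * rb a) * rb a⁻¹ := by rw [ha]
          rw [← mul_assoc, rb_inv_mul, one_mul, mul_assoc, mul_assoc, rb_mul_inv, mul_one]
            at this
          exact this.symm }
    have hG₀ : ∀ σ, σ ∈ G₀ ↔ rb σ * X = X * rb σ := fun σ => Iff.rfl
    have hidx : G₀.index = 1 ∨ G₀.index = 2 := by
      by_cases htop : G₀ = ⊤
      · left
        rw [htop, Subgroup.index_top]
      · right
        obtain ⟨τ, hτ⟩ : ∃ τ : GQ, τ ∉ G₀ := by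
          by_contra hall
          push Not at hall
          exact htop (Subgroup.eq_top_iff' G₀ |>.mpr hall)
        have hτ' : rb τ * X = -(X * rb τ) := (hpm τ).resolve_left hτ
        rw [Subgroup.index_eq_two_iff]
        refine ⟨τ, fun b => ?_⟩
        have hne : ∀ σ : GQ, ¬ (rb σ * X = X * rb σ ∧ rb σ * X = -(X * rb σ)) := by
          rintro σ ⟨e1, e2⟩
          rw [e1] at e2
          have e3 : (2 : k) • (X * rb σ) = 0 := by
            rw [two_smul]
            nth_rewrite 1 [e2]
            rw [neg_add_cancel]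
          have e4 : X * rb σ = 0 := by
            rcases smul_eq_zero.mp e3 with h' | h'
            · exact absurd h' h2
            · exact h'
          apply hX0
          have e5 : X * rb σ * rb σ⁻¹ = 0 * rb σ⁻¹ := by rw [e4]
          rw [mul_assoc, rb_mul_inv, mul_one, zero_mul] at e5
          exact e5
        by_cases hb : b ∈ G₀
        · refine Or.inr ⟨hb, fun hbτ => ?_⟩
          rw [hG₀] at hb hbτ
          apply hne (b * τ)
          refine ⟨hbτ, ?_⟩
          rw [map_mul, mul_assoc, hτ', Matrix.mul_neg, ← mul_assoc, hb, mul_assoc]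
        · have hb' : rb b * X = -(X * rb b) := (hpm b).resolve_left hb
          refine Or.inl ⟨?_, hb⟩
          rw [hG₀, map_mul, mul_assoc, hτ', Matrix.mul_neg, ← mul_assoc, hb', Matrix.neg_mul,
            neg_neg, mul_assoc]
    -- the eigenvector over the algebraic closure
    let K := AlgebraicClosure k
    let f : k →+* K := algebraMap k K
    obtain ⟨lam, hlam⟩ := IsAlgClosed.exists_eq_mul_self (f (-X.det))
    let XK : Mat2 K := X.map f
    have hXKtr : XK.trace = 0 := by
      have : XK.trace = f X.trace := by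
        simp [XK, Matrix.trace_fin_two]
      rw [this, hXtr, map_zero]
    have hXKdet : XK.det = f X.det := by
      simp [XK, Matrix.det_fin_two]
    let N : Mat2 K := XK + lam • (1 : Mat2 K)
    have hNdet : N.det = 0 := by
      rw [det_add_smul_one, hXKtr, mul_zero, add_zero, hXKdet, ← hlam, map_neg, add_neg_cancel]
    have h2K : (2 : K) ≠ 0 := by
      have : (2 : K) = f 2 := (map_ofNat f 2).symm
      rw [this]
      exact (map_ne_zero f).mpr h2
    have hN0 : N ≠ 0 := by
      intro hN
      have htr : N.trace = 2 * lam := by rw [trace_add_smul_one, hXKtr, zero_add]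
      rw [hN, Matrix.trace_zero] at htr
      have hl : lam = 0 := by
        rcases mul_eq_zero.mp htr.symm with h' | h'
        · exact absurd h' h2K
        · exact h'
      apply hX0
      have hXK0 : XK = 0 := by
        have : N = XK := by simp [N, hl]
        rw [← this, hN]
      ext i j
      have := congrFun (congrFun hXK0 i) j
      simp only [XK, Matrix.map_apply, Matrix.zero_apply] at this
      exact (map_eq_zero f).mp this
    obtain ⟨j, hj⟩ := exists_col_ne_zero hN0
    refine hj (h.irr K G₀ hidx _ fun σ hσ => ?_)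
    rw [hG₀] at hσ
    have hcomm : (rb σ).map f * N = (1 : K) • (N * (rb σ).map f) := by
      have e : (rb σ).map f * XK = XK * (rb σ).map f := by
        simp only [XK]
        rw [← Matrix.map_mul, ← Matrix.map_mul, hσ]
      simp only [N]
      rw [one_smul, mul_add, add_mul, e, Matrix.mul_smul, Matrix.smul_mul, mul_one, one_mul]
    exact mulVec_col_of_semicomm hNdet 1 hcomm hj

theorem finrank_sl2 : Module.finrank k (sl2 k) = 3 := by
  have hsurj : Function.Surjective (Matrix.traceLinearMap (Fin 2) k k) := by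
    intro a
    refine ⟨!![a, 0; 0, 0], ?_⟩
    simp [Matrix.trace_fin_two]
  have h1 := LinearMap.finrank_range_add_finrank_ker (Matrix.traceLinearMap (Fin 2) k k)
  rw [LinearMap.range_eq_top.mpr hsurj, finrank_top, Module.finrank_self, Module.finrank_matrix,
    Module.finrank_self] at h1
  simp only [Fintype.card_fin] at h1
  have : Module.finrank k (sl2 k) =
      Module.finrank k (LinearMap.ker (Matrix.traceLinearMap (Fin 2) k k)) := rfl
  omega

theorem conj_mul_conj (rb : GQ →* Mat2 k) (σ : GQ) (A B : Mat2 k) :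
    (rb σ * A * rb σ⁻¹) * (rb σ * B * rb σ⁻¹) = rb σ * (A * B) * rb σ⁻¹ := by
  calc (rb σ * A * rb σ⁻¹) * (rb σ * B * rb σ⁻¹)
      = rb σ * A * (rb σ⁻¹ * rb σ) * B * rb σ⁻¹ := by simp only [mul_assoc]
    _ = rb σ * (A * B) * rb σ⁻¹ := by
      rw [rb_inv_mul, mul_one]
      simp only [mul_assoc]

end Grp

/-- **`sl₂` is irreducible** under the adjoint action of the image of the residual
representation. -/
theorem sl2_irreducible (rb : GQ →* Mat2 k) (p : ℕ) [Fact p.Prime] (hp2 : p ≠ 2)
    (h : ResidualHyp rb p) (W : Submodule k (Mat2 k)) (hW : W ≤ sl2 k) (hW0 : W ≠ ⊥)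
    (hst : ∀ σ : GQ, ∀ X ∈ W, rb σ * X * rb σ⁻¹ ∈ W) : W = sl2 k := by
  by_contra hne
  have h2 : (2 : k) ≠ 0 := Grp.two_ne_zero_of_hyp hp2 h
  have hlt : W < sl2 k := lt_of_le_of_ne hW hne
  have h3 : Module.finrank k (sl2 k) = 3 := Grp.finrank_sl2
  have hfin := Submodule.finrank_lt_finrank_of_lt hlt
  have hpos : 0 < Module.finrank k W := by
    rw [Nat.pos_iff_ne_zero, Ne, Submodule.finrank_eq_zero]
    exact hW0
  have hcases : Module.finrank k W = 1 ∨ Module.finrank k W = 2 := by omega
  rcases hcases with h1 | h2'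
  · obtain ⟨v, hv0, hv⟩ := finrank_eq_one_iff'.mp h1
    refine Grp.no_stable_line rb p hp2 h (v : Mat2 k) ?_ (hW v.2) fun σ => ?_
    · intro hv'
      exact hv0 (Subtype.ext hv')
    · obtain ⟨c, hc⟩ := hv ⟨rb σ * v * rb σ⁻¹, hst σ v v.2⟩
      exact ⟨c, (congrArg Subtype.val hc).symm⟩
  · let b := Module.finBasisOfFinrankEq k W h2'
    have hXW : (b 0 : Mat2 k) ∈ W := (b 0).2
    have hX'W : (b 1 : Mat2 k) ∈ W := (b 1).2
    have hX0 : (b 0 : Mat2 k) ≠ 0 := by
      intro h0
      exact b.ne_zero 0 (Subtype.ext h0)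
    have hspan : ∀ Z ∈ W, ∃ α β : k, Z = α • (b 0 : Mat2 k) + β • (b 1 : Mat2 k) := by
      intro Z hZ
      have e := b.sum_repr ⟨Z, hZ⟩
      rw [Fin.sum_univ_two] at e
      exact ⟨b.repr ⟨Z, hZ⟩ 0, b.repr ⟨Z, hZ⟩ 1, (congrArg Subtype.val e).symm⟩
    have hY0 : (b 0 : Mat2 k) * (b 1 : Mat2 k) - (b 1 : Mat2 k) * (b 0 : Mat2 k) ≠ 0 := by
      intro hY
      obtain ⟨c, hc⟩ := Grp.exists_smul_of_commute h2 (hW hXW) (hW hX'W) hX0 (sub_eq_zero.mp hY)
      have e1 : b 1 = c • b 0 := Subtype.ext hc
      have e2 := congrArg (fun w => b.repr w 1) e1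
      simp at e2
    have hYtr : ((b 0 : Mat2 k) * (b 1 : Mat2 k) - (b 1 : Mat2 k) * (b 0 : Mat2 k)).trace = 0 := by
      rw [Matrix.trace_sub, Matrix.trace_mul_comm, sub_self]
    refine Grp.no_stable_line rb p hp2 h _ hY0 hYtr fun σ => ?_
    obtain ⟨α, β, e1⟩ := hspan _ (hst σ _ hXW)
    obtain ⟨γ, δ, e2⟩ := hspan _ (hst σ _ hX'W)
    refine ⟨α * δ - β * γ, ?_⟩
    rw [Matrix.mul_sub, Matrix.sub_mul, ← Grp.conj_mul_conj, ← Grp.conj_mul_conj, e1, e2]
    simp only [add_mul, mul_add, smul_mul_assoc, mul_smul_comm, smul_sub, sub_smul]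
    module

end Fermat.Agent.TW
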