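/-
TW (S56), task TW-R8: an element of `G_{ℚ(ζ_{p^(n+1)})}` whose image under the residual
representation has two distinct eigenvalues.
-/
import Mathlib
import Fermat.Agent.TW.Defs
import Fermat.Agent.TW.Hyp
import Fermat.Agent.TW.Group.Mat
import Fermat.Agent.TW.Group.Line

set_option autoImplicit false

namespace Fermat.Agent.TW

open Fermat.Agent.S53 IsLocalRing Polynomial Matrix

variable {k : Type} [Field k]

namespace Grp

/-- `g` fixes the `m`-th roots of unity. -/
def Fix (m : ℕ) (g : GQ) : Prop := ∀ μ : AlgebraicClosure ℚ, μ ^ m = 1 → g μ = μ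

theorem Fix.mul {m : ℕ} {g g' : GQ} (hg : Fix m g) (hg' : Fix m g') : Fix m (g * g') := by
  intro μ hμ
  rw [AlgEquiv.mul_apply, hg' μ hμ, hg μ hμ]

theorem Fix.one (m : ℕ) : Fix m (1 : GQ) := fun _ _ => rfl

theorem apply_inv_apply (σ : GQ) (x : AlgebraicClosure ℚ) : σ (σ⁻¹ x) = x := by
  rw [← AlgEquiv.mul_apply, mul_inv_cancel]
  rfl

theorem inv_apply_apply (σ : GQ) (x : AlgebraicClosure ℚ) : σ⁻¹ (σ x) = x := by
  rw [← AlgEquiv.mul_apply, inv_mul_cancel]
  rfl

theorem Fix.conj {m : ℕ} {g : GQ} (hg : Fix m g) (σ : GQ) : Fix m (σ * g * σ⁻¹) := by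
  intro μ hμ
  have h1 : (σ⁻¹ μ) ^ m = 1 := by rw [← map_pow, hμ, map_one]
  rw [AlgEquiv.mul_apply, AlgEquiv.mul_apply, hg _ h1, apply_inv_apply]

/-- Two automorphisms commute on roots of unity. -/
theorem comm_on_roots {m : ℕ} (hm : m ≠ 0) (σ τ : GQ) (μ : AlgebraicClosure ℚ)
    (hμ : μ ^ m = 1) : σ (τ μ) = τ (σ μ) := by
  have : NeZero m := ⟨hm⟩
  have hcyc : IsCyclic (rootsOfUnity m (AlgebraicClosure ℚ)) :=
    rootsOfUnity.isCyclic (AlgebraicClosure ℚ) m
  obtain ⟨a, ha⟩ := MonoidHom.map_cyclic (restrictRootsOfUnity σ m)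
  obtain ⟨b, hb⟩ := MonoidHom.map_cyclic (restrictRootsOfUnity τ m)
  let t : rootsOfUnity m (AlgebraicClosure ℚ) := rootsOfUnity.mkOfPowEq μ hμ
  have ht : ((t : (AlgebraicClosure ℚ)ˣ) : AlgebraicClosure ℚ) = μ := rootsOfUnity.coe_mkOfPowEq hμ
  have e : restrictRootsOfUnity σ m (restrictRootsOfUnity τ m t) =
      restrictRootsOfUnity τ m (restrictRootsOfUnity σ m t) := by
    rw [hb t, ha t, ha, hb, ← _root_.zpow_mul, ← _root_.zpow_mul, mul_comm]
  have e' := congrArg (fun x : rootsOfUnity m (AlgebraicClosure ℚ) =>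
    ((x : (AlgebraicClosure ℚ)ˣ) : AlgebraicClosure ℚ)) e
  simp only [restrictRootsOfUnity_coe_apply, ht] at e'
  exact e'

/-- Commutators fix the roots of unity. -/
theorem Fix.commutator {m : ℕ} (hm : m ≠ 0) (σ τ : GQ) : Fix m (σ * τ * σ⁻¹ * τ⁻¹) := by
  intro μ hμ
  have h1 : (τ⁻¹ μ) ^ m = 1 := by rw [← map_pow, hμ, map_one]
  have h2 : (σ⁻¹ (τ⁻¹ μ)) ^ m = 1 := by rw [← map_pow, h1, map_one]
  rw [AlgEquiv.mul_apply, AlgEquiv.mul_apply, AlgEquiv.mul_apply, comm_on_roots hm σ τ _ h2,
    apply_inv_apply, apply_inv_apply]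

theorem det_eq_one_of_fix {rb : GQ →* Mat2 k} {p : ℕ} (h : ResidualHyp rb p) {n : ℕ} {g : GQ}
    (hg : Fix (p ^ (n + 1)) g) : (rb g).det = 1 := by
  have := h.detCyc g 1 fun μ hμ => by
    rw [pow_one]
    refine hg μ ?_
    rw [pow_succ', pow_mul, hμ, one_pow]
  rw [this, Nat.cast_one]

/-- Trace and determinant from a split characteristic polynomial. -/
theorem trace_det_of_charpoly {M : Mat2 k} {α β : k}
    (hM : M.charpoly = (X - C α) * (X - C β)) : M.trace = α + β ∧ M.det = α * β := by
  rw [Matrix.charpoly_fin_two] at hM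
  have e0 := congrArg (Polynomial.eval 0) hM
  have e1 := congrArg (Polynomial.eval 1) hM
  simp only [eval_add, eval_sub, eval_mul, eval_pow, eval_X, eval_C] at e0 e1
  have hd : M.det = α * β := by linear_combination e0
  refine ⟨?_, hd⟩
  linear_combination hd - e1

/-- An element without distinct eigenvalues and with determinant one has trace `±2`. -/
theorem trace_of_not_distinct {rb : GQ →* Mat2 k} {p : ℕ} (h : ResidualHyp rb p) {g : GQ}
    (hdet : (rb g).det = 1) (hnd : ¬ HasDistinctEigen (rb g)) :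
    (rb g).trace = 2 ∨ (rb g).trace = -2 := by
  obtain ⟨α, β, hαβ⟩ := h.split g
  have hab : α = β := by
    by_contra hne
    exact hnd ⟨α, β, hne, hαβ⟩
  obtain ⟨ht, hd⟩ := trace_det_of_charpoly hαβ
  rw [hab] at ht hd
  rw [hdet] at hd
  have : (β - 1) * (β + 1) = 0 := by linear_combination -hd
  rcases mul_eq_zero.mp this with h1 | h1
  · left
    rw [ht, sub_eq_zero.mp h1]
    norm_num
  · right
    rw [ht, eq_neg_of_add_eq_zero_left h1]
    norm_num

theorem det_smul_sub_one (M : Mat2 k) (ε : k) :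
    (ε • M - 1).det = ε * ε * M.det - ε * M.trace + 1 := by
  simp [Matrix.det_fin_two, Matrix.trace_fin_two]
  ring

theorem trace_conj_rb (rb : GQ →* Mat2 k) (σ : GQ) (A : Mat2 k) :
    (rb σ * A * rb σ⁻¹).trace = A.trace := by
  rw [Matrix.trace_mul_comm, ← mul_assoc, rb_inv_mul, one_mul]

end Grp

open Grp in
/-- **Existence of a regular semisimple element fixing the `p^(n+1)`-th roots of unity.** -/
theorem exists_distinctEigen_fixing_roots [Finite k] (rb : GQ →* Mat2 k) (p : ℕ) [Fact p.Prime]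
    (hp2 : p ≠ 2) (h : ResidualHyp rb p) (n : ℕ) :
    ∃ g : GQ, (∀ μ : AlgebraicClosure ℚ, μ ^ p ^ (n + 1) = 1 → g μ = μ) ∧
      HasDistinctEigen (rb g) := by
  by_contra hno
  push Not at hno
  have hp : p.Prime := Fact.out
  have hm : p ^ (n + 1) ≠ 0 := pow_ne_zero _ hp.ne_zero
  have h2 : (2 : k) ≠ 0 := two_ne_zero_of_hyp hp2 h
  have h4 : (4 : k) ≠ 0 := by
    have : (4 : k) = 2 * 2 := by norm_num
    rw [this]
    exact mul_ne_zero h2 h2
  have hkey : ∀ g : GQ, Fix (p ^ (n + 1)) g →
      ((rb g).trace = 2 ∨ (rb g).trace = -2) ∧ (rb g).det = 1 := fun g hg =>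
    ⟨trace_of_not_distinct h (det_eq_one_of_fix h hg) (hno g hg), det_eq_one_of_fix h hg⟩
  by_cases hA : ∃ g₁ : GQ, Fix (p ^ (n + 1)) g₁ ∧ rb g₁ ≠ 1 ∧ rb g₁ ≠ -1
  · -- a non-scalar element: all of `GQ` fixes its eigenline
    obtain ⟨g₁, hg₁, hne1, hne2⟩ := hA
    obtain ⟨htr, hdet⟩ := hkey g₁ hg₁
    obtain ⟨ε, hε, htrε⟩ : ∃ ε : k, ε * ε = 1 ∧ (rb g₁).trace = 2 * ε := by
      rcases htr with h' | h'
      · exact ⟨1, by ring, by rw [h']; ring⟩
      · exact ⟨-1, by ring, by rw [h']; ring⟩
    let N : Mat2 k := ε • rb g₁ - 1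
    have hM1 : rb g₁ = ε • (1 + N) := by
      simp only [N]
      rw [add_sub_cancel, smul_smul, hε, one_smul]
    have hNtr : N.trace = 0 := by
      simp only [N]
      rw [Matrix.trace_sub, Matrix.trace_smul, htrε, Matrix.trace_one, Fintype.card_fin,
        smul_eq_mul]
      push_cast
      linear_combination 2 * hε
    have hNdet : N.det = 0 := by
      simp only [N]
      rw [det_smul_sub_one, hdet, htrε]
      linear_combination -hε
    have hNsq : N * N = 0 := by
      rw [mul_self_of_trace_eq_zero hNtr, hNdet, neg_zero, zero_smul]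
    have hN0 : N ≠ 0 := by
      intro hN
      have e : ε • rb g₁ = 1 := sub_eq_zero.mp hN
      have e' : rb g₁ = ε • (1 : Mat2 k) := by
        rw [← e, smul_smul, hε, one_smul]
      have hε' : (ε - 1) * (ε + 1) = 0 := by linear_combination hε
      rcases mul_eq_zero.mp hε' with h' | h'
      · apply hne1
        rw [e', sub_eq_zero.mp h', one_smul]
      · apply hne2
        rw [e', eq_neg_of_add_eq_zero_left h', neg_smul, one_smul]
    obtain ⟨j, hj⟩ := exists_col_ne_zero hN0
    have hNv : N *ᵥ N.col j = 0 := by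
      rw [← Matrix.mulVec_single_one, Matrix.mulVec_mulVec, hNsq, Matrix.zero_mulVec]
    refine hj (irr_base h _ fun σ => ?_)
    -- the two trace conditions
    have hf2 : Fix (p ^ (n + 1)) (σ * g₁ * σ⁻¹) := hg₁.conj σ
    obtain ⟨hT1, -⟩ := hkey _ (hg₁.mul hf2)
    obtain ⟨hT2, -⟩ := hkey _ ((hg₁.mul hg₁).mul hf2)
    let N₂ : Mat2 k := rb σ * N * rb σ⁻¹
    have hM2 : rb (σ * g₁ * σ⁻¹) = ε • (1 + N₂) := by
      simp only [N₂]
      rw [map_mul, map_mul, hM1, Matrix.mul_smul, Matrix.smul_mul, mul_add, add_mul, mul_one,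
        rb_mul_inv]
    have hN₂tr : N₂.trace = 0 := by
      simp only [N₂]
      rw [trace_conj_rb, hNtr]
    set t : k := (N * N₂).trace with ht
    have e1 : (rb (g₁ * (σ * g₁ * σ⁻¹))).trace = 2 + t := by
      rw [map_mul, hM2, hM1, Matrix.smul_mul, Matrix.mul_smul, smul_smul, hε, one_smul]
      have : (1 + N) * (1 + N₂) = 1 + N + N₂ + N * N₂ := by noncomm_ring
      rw [this, Matrix.trace_add, Matrix.trace_add, Matrix.trace_add, hNtr, hN₂tr,
        Matrix.trace_one, Fintype.card_fin]
      push_cast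
      ring
    have hM11 : rb g₁ * rb g₁ = 1 + (2 : k) • N := by
      rw [hM1, Matrix.smul_mul, Matrix.mul_smul, smul_smul, hε, one_smul, two_smul]
      have : (1 + N) * (1 + N) = 1 + N + N + N * N := by noncomm_ring
      rw [this, hNsq, add_zero, add_assoc]
    have e2 : (rb (g₁ * g₁ * (σ * g₁ * σ⁻¹))).trace = ε * (2 + 2 * t) := by
      have e2a : rb (g₁ * g₁ * (σ * g₁ * σ⁻¹)) = rb g₁ * rb g₁ * rb (σ * g₁ * σ⁻¹) := by
        rw [map_mul rb (g₁ * g₁) (σ * g₁ * σ⁻¹), map_mul rb g₁ g₁]
      rw [e2a, hM11, hM2, Matrix.mul_smul, Matrix.trace_smul, smul_eq_mul]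
      have : (1 + (2 : k) • N) * (1 + N₂) = 1 + (2 : k) • N + N₂ + (2 : k) • (N * N₂) := by
        rw [add_mul, mul_add, mul_add, one_mul, mul_one, one_mul, Matrix.smul_mul]
        abel
      rw [this, Matrix.trace_add, Matrix.trace_add, Matrix.trace_add,
        Matrix.trace_smul, Matrix.trace_smul, hNtr, hN₂tr, Matrix.trace_one, Fintype.card_fin,
        smul_eq_mul, smul_eq_mul, ← ht]
      push_cast
      ring
    rw [e1] at hT1
    rw [e2] at hT2
    have ht0 : t = 0 := by
      have hT2' : 2 + 2 * t = 2 ∨ 2 + 2 * t = -2 := by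
        have hε' : (ε - 1) * (ε + 1) = 0 := by linear_combination hε
        rcases mul_eq_zero.mp hε' with h' | h'
        · have hε1 : ε = 1 := sub_eq_zero.mp h'
          rw [hε1, one_mul] at hT2
          exact hT2
        · have hε1 : ε = -1 := eq_neg_of_add_eq_zero_left h'
          rw [hε1] at hT2
          rcases hT2 with h'' | h''
          · right
            linear_combination -h''
          · left
            linear_combination -h''
      rcases hT1 with h' | h'
      · linear_combination h'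
      · have ht4 : t = -4 := by linear_combination h'
        rw [ht4] at hT2'
        exfalso
        rcases hT2' with h'' | h''
        · apply h2
          have : (2 : k) * 4 = 0 := by linear_combination -h''
          rcases mul_eq_zero.mp this with h3 | h3
          · exact h3
          · exact absurd h3 h4
        · apply h4
          linear_combination -h''
    -- the rank-one identity
    have hid : ∀ A : Mat2 k, N * A * N = (N * A).trace • N := by
      intro A
      rw [mul_mul_self_eq, hNdet, zero_smul, sub_zero]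
    have hprod : t = (N * rb σ).trace * (N * rb σ⁻¹).trace := by
      rw [ht]
      simp only [N₂]
      have : N * (rb σ * N * rb σ⁻¹) = (N * rb σ * N) * rb σ⁻¹ := by simp only [mul_assoc]
      rw [this, hid, Matrix.smul_mul, Matrix.trace_smul, smul_eq_mul]
    rw [ht0] at hprod
    rcases mul_eq_zero.mp hprod.symm with h' | h'
    · have e3 : N * rb σ * N = 0 := by rw [hid, h', zero_smul]
      have e4 : N *ᵥ (rb σ *ᵥ N.col j) = 0 := by
        rw [← Matrix.mulVec_single_one, Matrix.mulVec_mulVec, Matrix.mulVec_mulVec, e3,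
          Matrix.zero_mulVec]
      exact exists_smul_of_mulVec_eq_zero hN0 hj hNv e4
    · have e3 : N * rb σ⁻¹ * N = 0 := by rw [hid, h', zero_smul]
      have e4 : N *ᵥ (rb σ⁻¹ *ᵥ N.col j) = 0 := by
        rw [← Matrix.mulVec_single_one, Matrix.mulVec_mulVec, Matrix.mulVec_mulVec, e3,
          Matrix.zero_mulVec]
      obtain ⟨a, ha⟩ := exists_smul_of_mulVec_eq_zero hN0 hj hNv e4
      have e5 : N.col j = a • (rb σ *ᵥ N.col j) := by
        have := congrArg (fun w => rb σ *ᵥ w) ha
        simp only [Matrix.mulVec_mulVec, rb_mul_inv, Matrix.one_mulVec, Matrix.mulVec_smul]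
          at this
        exact this
      have ha0 : a ≠ 0 := by
        intro ha0
        rw [ha0, zero_smul] at e5
        exact hj e5
      refine ⟨a⁻¹, ?_⟩
      rw [e5, smul_smul, inv_mul_cancel₀ ha0, one_smul, ← e5]
  · -- the image of the fixer of the roots of unity is `±1`
    push Not at hA
    have hB : ∀ g : GQ, Fix (p ^ (n + 1)) g → rb g = 1 ∨ rb g = -1 := by
      intro g hg
      by_cases h1 : rb g = 1
      · exact Or.inl h1
      · exact Or.inr (hA g hg h1)
    by_cases hsc : ∀ τ : GQ, ∃ c : k, rb τ = c • (1 : Mat2 k)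
    · have hv : (Pi.single 0 1 : Fin 2 → k) = 0 := by
        refine irr_base h _ fun σ => ?_
        obtain ⟨c, hc⟩ := hsc σ
        exact ⟨c, by rw [hc, Matrix.smul_mulVec, Matrix.one_mulVec]⟩
      have := congrFun hv 0
      simp at this
    · push Not at hsc
      obtain ⟨τ, hτ⟩ := hsc
      let Z : Mat2 k := rb τ - ((rb τ).trace / 2) • (1 : Mat2 k)
      have hZ0 : Z ≠ 0 := by
        intro hZ
        exact hτ _ (sub_eq_zero.mp hZ)
      have hZtr : Z.trace = 0 := by
        simp only [Z]
        rw [Matrix.trace_sub, Matrix.trace_smul, Matrix.trace_one, Fintype.card_fin, smul_eq_mul]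
        push_cast
        field_simp
        ring
      refine no_stable_line rb p hp2 h Z hZ0 hZtr fun σ => ?_
      have hc := hB _ (Fix.commutator hm σ τ)
      rw [map_mul, map_mul, map_mul] at hc
      have hconj : ∀ c : k, rb σ * rb τ * rb σ⁻¹ * rb τ⁻¹ = c • (1 : Mat2 k) →
          rb σ * rb τ * rb σ⁻¹ = c • rb τ := by
        intro c hc'
        have e6 : rb σ * rb τ * rb σ⁻¹ * rb τ⁻¹ * rb τ = c • (1 : Mat2 k) * rb τ := by rw [hc']
        rw [mul_assoc, rb_inv_mul, mul_one, Matrix.smul_mul, one_mul] at e6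
        exact e6
      rcases hc with hc | hc
      · refine ⟨1, ?_⟩
        have e := hconj 1 (by rw [hc, one_smul])
        rw [one_smul] at e ⊢
        simp only [Z]
        rw [mul_sub, sub_mul, e, Matrix.mul_smul, Matrix.smul_mul, mul_one, rb_mul_inv]
      · refine ⟨-1, ?_⟩
        have e := hconj (-1) (by rw [hc, neg_smul, one_smul])
        rw [neg_smul, one_smul] at e
        have htr0 : (rb τ).trace = 0 := by
          have e' := congrArg Matrix.trace e
          rw [trace_conj_rb, Matrix.trace_neg] at e'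
          have : (2 : k) * (rb τ).trace = 0 := by linear_combination e'
          rcases mul_eq_zero.mp this with h' | h'
          · exact absurd h' h2
          · exact h'
        simp only [Z]
        rw [htr0, zero_div, zero_smul, sub_zero, e, neg_smul, one_smul]

end Fermat.Agent.TW
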