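/-
TW (S56), task TW-R8: reduction of the vanishing of `H¹(Gal(F_n/ℚ), ad⁰(1))` to the finite group
statement TW-DICKSON, and the regular semisimple element detecting a non-trivial class.
-/
import Mathlib
import Fermat.Agent.TW.Defs
import Fermat.Agent.TW.Hyp
import Fermat.Agent.TW.Basic
import Fermat.Agent.TW.ResHyp
import Fermat.Agent.TW.Group.Mat
import Fermat.Agent.TW.Group.Line
import Fermat.Agent.TW.Group.Eigen
import Fermat.Agent.CFT.Red.CycloExp

set_option autoImplicit false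

namespace Fermat.Agent.TW

open Fermat.Agent.S53 IsLocalRing Polynomial Matrix

variable {k : Type} [Field k]

/-- The statement of task TW-DICKSON (`finite_group_H1_vanish`) for the field `k` and the prime
`p`: vanishing of `H¹(G, ad⁰ ⊗ det)` for a subgroup `G` of `GL₂(k)` with the properties of the
image of the residual representation. -/
def DicksonStatement (k : Type) [Field k] (p : ℕ) : Prop :=
  ∀ G : Subgroup (GL (Fin 2) k),
    (∀ g ∈ G, (g : Mat2 k).det ^ (p - 1) = 1) →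
    (∀ a : k, a ^ (p - 1) = 1 → ∃ g ∈ G, (g : Mat2 k).det = a) →
    (∀ g ∈ G, ∃ α β : k, (g : Mat2 k).charpoly = (X - C α) * (X - C β)) →
    (∀ (K : Type) [Field K] [Algebra k K] (H : Subgroup (GL (Fin 2) k)), H ≤ G →
      (H.subgroupOf G).index = 1 ∨ (H.subgroupOf G).index = 2 →
      ∀ v : Fin 2 → K, (∀ g ∈ H, ∃ a : K,
        ((g : Mat2 k).map (algebraMap k K)).mulVec v = a • v) → v = 0) →
    ∀ x : GL (Fin 2) k → Mat2 k, (∀ g ∈ G, (x g).trace = 0) →
    (∀ g ∈ G, ∀ g' ∈ G, x (g * g') =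
      x g + (g : Mat2 k).det • ((g : Mat2 k) * x g' * ((g⁻¹ : GL (Fin 2) k) : Mat2 k))) →
    ∃ Y : Mat2 k, Y.trace = 0 ∧ ∀ g ∈ G,
      x g = (g : Mat2 k).det • ((g : Mat2 k) * Y * ((g⁻¹ : GL (Fin 2) k) : Mat2 k)) - Y

namespace Grp

open Fermat.Agent.CFT.Red.CycloExp

theorem charP_of_hyp {rb : GQ →* Mat2 k} {p : ℕ} [Fact p.Prime] (h : ResidualHyp rb p) :
    CharP k p :=
  (CharP.charP_iff_prime_eq_zero (Fact.out : p.Prime)).mpr h.charP

/-- The determinant of the residual representation is the mod `p` cyclotomic character. -/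
theorem det_eq_chi {rb : GQ →* Mat2 k} {p : ℕ} [Fact p.Prime] (h : ResidualHyp rb p) (σ : GQ) :
    (rb σ).det = (((chi p σ : (ZMod p)ˣ) : ZMod p).val : k) :=
  h.detCyc σ _ fun _ hμ => chi_spec p σ hμ

theorem det_pow_pred {rb : GQ →* Mat2 k} {p : ℕ} [Fact p.Prime] (h : ResidualHyp rb p)
    (σ : GQ) : (rb σ).det ^ (p - 1) = 1 := by
  have : CharP k p := charP_of_hyp h
  have : NeZero p := ⟨(Fact.out : p.Prime).ne_zero⟩
  rw [det_eq_chi h, ZMod.natCast_val, ← ZMod.castHom_apply (h := dvd_refl p), ← map_pow,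
    ZMod.pow_card_sub_one_eq_one (Units.ne_zero _), map_one]

theorem exists_det_eq {rb : GQ →* Mat2 k} {p : ℕ} [Fact p.Prime] (h : ResidualHyp rb p)
    (a : k) (ha : a ^ (p - 1) = 1) : ∃ σ : GQ, (rb σ).det = a := by
  have hp : p.Prime := Fact.out
  have : CharP k p := charP_of_hyp h
  have : NeZero p := ⟨hp.ne_zero⟩
  have hap : a ^ p = a := by
    have : p = (p - 1) + 1 := by have := hp.pos; omega
    rw [this, pow_succ, ha, one_mul]
  have ha0 : a ≠ 0 := by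
    rintro rfl
    rw [zero_pow (by have := hp.two_le; omega)] at ha
    exact zero_ne_one ha
  have hmem : a ∈ (⊥ : Subfield k) := (Subfield.mem_bot_iff_pow_eq_self k p).mpr hap
  rw [← ZMod.fieldRange_castHom_eq_bot p, RingHom.mem_fieldRange] at hmem
  obtain ⟨c, hc⟩ := hmem
  have hc0 : c ≠ 0 := by
    rintro rfl
    rw [map_zero] at hc
    exact ha0 hc.symm
  obtain ⟨σ, hσ⟩ := chi_surjective p (Units.mk0 c hc0)
  refine ⟨σ, ?_⟩
  rw [det_eq_chi h, hσ, Units.val_mk0, ZMod.natCast_val, ← hc, ZMod.castHom_apply]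

end Grp

open Grp in
/-- **Reduction to TW-DICKSON**: a cocycle with values in `ad⁰(1)` vanishing on
`ker rb ∩ G_{ℚ(ζ_{p^(n+1)})}` is a coboundary. -/
theorem mem_B1_of_vanish_on_kernel_of [Finite k] (rb : GQ →* Mat2 k) (p : ℕ) [Fact p.Prime]
    (hp2 : p ≠ 2) (h : ResidualHyp rb p) (hD : DicksonStatement k p) (n : ℕ) (d : GQ → Mat2 k)
    (hd : d ∈ Z1 rb (detChar rb))
    (hker : ∀ s : GQ, rb s = 1 → (∀ μ : AlgebraicClosure ℚ, μ ^ p ^ (n + 1) = 1 → s μ = μ) →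
      d s = 0) : d ∈ B1 rb (detChar rb) := by
  have hp : p.Prime := Fact.out
  have hm : p ^ (n + 1) ≠ 0 := pow_ne_zero _ hp.ne_zero
  have htr := hd.1
  have hcoc := hd.2.1
  have hχ1 : ∀ s : GQ, rb s = 1 → detChar rb s = 1 := fun s hs =>
    Units.ext (by rw [detChar_apply, hs, Matrix.det_one, Units.val_one])
  -- step 1: `d` vanishes on the kernel of `rb`
  have hS1 : ∀ s : GQ, rb s = 1 → d s = 0 := by
    intro s hs
    apply ResHyp.eq_zero_of_adAct_det rb p hp2 h (d s) (htr s)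
    intro σ
    have hs' : rb (σ * s * σ⁻¹) = 1 := by rw [map_mul, map_mul, hs, mul_one, rb_mul_inv]
    have hsi : rb s⁻¹ = 1 := by
      have := rb_mul_inv rb s
      rwa [hs, one_mul] at this
    have hc : rb (σ * s * σ⁻¹ * s⁻¹) = 1 := by rw [map_mul, hs', hsi, one_mul]
    have h0 := hker _ hc (Fix.commutator hm σ s)
    have e1 : d (σ * s * σ⁻¹) = adAct rb (detChar rb) σ (d s) := by
      rw [hcoc (σ * s) σ⁻¹, hcoc σ s, adAct_mul, adAct_eq_of_rb_eq_one rb _ s hs (hχ1 s hs),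
        Z1_map_inv hd σ, map_neg, adAct_adAct_inv]
      abel
    have e2 : d s⁻¹ = - d s := by
      have e3 := Z1_map_inv hd s
      rw [adAct_eq_of_rb_eq_one rb _ s⁻¹ hsi (hχ1 _ hsi)] at e3
      exact e3
    rw [hcoc (σ * s * σ⁻¹) s⁻¹, adAct_eq_of_rb_eq_one rb _ _ hs' (hχ1 _ hs'), e1, e2] at h0
    exact eq_of_sub_eq_zero (by rw [sub_eq_add_neg]; exact h0)
  -- step 2: `d` factors through `rb`
  have hS2 : ∀ σ σ' : GQ, rb σ = rb σ' → d σ' = d σ := by
    intro σ σ' e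
    have hs : rb (σ⁻¹ * σ') = 1 := by rw [map_mul, ← e, rb_inv_mul]
    have e2 := hcoc σ (σ⁻¹ * σ')
    rw [mul_inv_cancel_left, hS1 _ hs, map_zero, add_zero] at e2
    exact e2
  -- step 3: the cocycle on the image
  let rbU : GQ →* GL (Fin 2) k := rb.toHomUnits
  have hrbU : ∀ σ : GQ, ((rbU σ : GL (Fin 2) k) : Mat2 k) = rb σ := fun σ => rfl
  have hrbUinv : ∀ σ : GQ, (((rbU σ)⁻¹ : GL (Fin 2) k) : Mat2 k) = rb σ⁻¹ := by
    intro σ
    rw [← map_inv, hrbU]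
  classical
  let x : GL (Fin 2) k → Mat2 k := fun γ =>
    if hγ : γ ∈ rbU.range then d (Classical.choose hγ) else 0
  have hx : ∀ σ : GQ, x (rbU σ) = d σ := by
    intro σ
    have hmem : rbU σ ∈ rbU.range := ⟨σ, rfl⟩
    simp only [x, dif_pos hmem]
    apply hS2
    have e := congrArg (fun γ : GL (Fin 2) k => (γ : Mat2 k)) (Classical.choose_spec hmem)
    simp only [hrbU] at e
    exact e.symm
  have key := hD rbU.range ?_ ?_ ?_ ?_ x ?_ ?_
  · obtain ⟨Y, hYtr, hY⟩ := key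
    refine (mem_B1 _ _ _).mpr ⟨Y, hYtr, fun σ => ?_⟩
    have e := hY (rbU σ) ⟨σ, rfl⟩
    rw [hx, hrbU, hrbUinv] at e
    rw [e, adAct_apply, detChar_apply]
  · rintro g ⟨σ, rfl⟩
    rw [hrbU]
    exact det_pow_pred h σ
  · intro a ha
    obtain ⟨σ, hσ⟩ := exists_det_eq h a ha
    exact ⟨rbU σ, ⟨σ, rfl⟩, by rw [hrbU, hσ]⟩
  · rintro g ⟨σ, rfl⟩
    rw [hrbU]
    exact h.split σ
  · intro K _ _ H _ hidx v hv
    refine h.irr K (H.comap rbU) ?_ v fun σ hσ => hv (rbU σ) hσ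
    rw [Subgroup.index_comap]
    exact hidx
  · rintro g ⟨σ, rfl⟩
    rw [hx]
    exact htr σ
  · rintro g ⟨σ, rfl⟩ g' ⟨τ, rfl⟩
    rw [← map_mul, hx, hx, hx, hcoc, adAct_apply, detChar_apply, hrbU, hrbUinv]

open Grp in
/-- **A regular semisimple element detecting a non-trivial class** (conditional on
TW-DICKSON). -/
theorem exists_regular_semisimple_nontrivial_of [Finite k] (rb : GQ →* Mat2 k) (p : ℕ)
    [Fact p.Prime] (hp2 : p ≠ 2) (h : ResidualHyp rb p) (hD : DicksonStatement k p)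
    (d : GQ → Mat2 k) (hd : d ∈ Z1 rb (detChar rb)) (hd' : d ∉ B1 rb (detChar rb)) (n : ℕ) :
    ∃ g : GQ, (∀ μ : AlgebraicClosure ℚ, μ ^ p ^ (n + 1) = 1 → g μ = μ) ∧
      HasDistinctEigen (rb g) ∧
      ¬ ∃ Y : Mat2 k, Y.trace = 0 ∧ d g = adAct rb (detChar rb) g Y - Y := by
  by_contra hcon
  push Not at hcon
  have h2 : (2 : k) ≠ 0 := two_ne_zero_of_hyp hp2 h
  have hχ1 : ∀ s : GQ, rb s = 1 → detChar rb s = 1 := fun s hs =>
    Units.ext (by rw [detChar_apply, hs, Matrix.det_one, Units.val_one])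
  have hcoc := hd.2.1
  obtain ⟨s₀, hs₀, hf₀, hds₀⟩ : ∃ s : GQ, rb s = 1 ∧ Fix (p ^ (n + 1)) s ∧ d s ≠ 0 := by
    by_contra hall
    push Not at hall
    exact hd' (mem_B1_of_vanish_on_kernel_of rb p hp2 h hD n d hd fun s hs hf => hall s hs hf)
  let W : Submodule k (Mat2 k) :=
    Submodule.span k {Y | ∃ s : GQ, rb s = 1 ∧ Fix (p ^ (n + 1)) s ∧ Y = d s}
  have hWsl : W ≤ sl2 k := Submodule.span_le.mpr (by
    rintro Y ⟨s, -, -, rfl⟩
    exact hd.1 s)
  have hW0 : W ≠ ⊥ := by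
    intro hW
    have hmem : d s₀ ∈ W := Submodule.subset_span ⟨s₀, hs₀, hf₀, rfl⟩
    rw [hW, Submodule.mem_bot] at hmem
    exact hds₀ hmem
  have hWst : ∀ σ : GQ, ∀ Y ∈ W, rb σ * Y * rb σ⁻¹ ∈ W := by
    intro σ Y hY
    induction hY using Submodule.span_induction with
    | mem Y hY =>
      obtain ⟨s, hs, hf, rfl⟩ := hY
      have e1 : d (σ * s * σ⁻¹) = adAct rb (detChar rb) σ (d s) := by
        rw [hcoc (σ * s) σ⁻¹, hcoc σ s, adAct_mul, adAct_eq_of_rb_eq_one rb _ s hs (hχ1 s hs),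
          Z1_map_inv hd σ, map_neg, adAct_adAct_inv]
        abel
      have e2 : rb σ * d s * rb σ⁻¹ = ((detChar rb σ : kˣ) : k)⁻¹ • d (σ * s * σ⁻¹) := by
        rw [e1, adAct_apply, smul_smul, inv_mul_cancel₀ (Units.ne_zero _), one_smul]
      rw [e2]
      refine W.smul_mem _ (Submodule.subset_span ⟨σ * s * σ⁻¹, ?_, hf.conj σ, rfl⟩)
      rw [map_mul, map_mul, hs, mul_one, rb_mul_inv]
    | zero =>
      rw [mul_zero, zero_mul]
      exact W.zero_mem
    | add Y Y' _ _ hY hY' =>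
      rw [mul_add, add_mul]
      exact W.add_mem hY hY'
    | smul a Y _ hY =>
      rw [Matrix.mul_smul, Matrix.smul_mul]
      exact W.smul_mem a hY
  have hWtop : W = sl2 k := sl2_irreducible rb p hp2 h W hWsl hW0 hWst
  obtain ⟨g₀, hg₀, hg₀e⟩ := exists_distinctEigen_fixing_roots rb p hp2 h n
  obtain ⟨Y₁, hY₁, hdg₀⟩ := hcon g₀ hg₀ hg₀e
  have hR : ∀ Y ∈ W, ∃ Z : Mat2 k, Z.trace = 0 ∧ Y = adAct rb (detChar rb) g₀ Z - Z := by
    intro Y hY
    induction hY using Submodule.span_induction with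
    | mem Y hY =>
      obtain ⟨s, hs, hf, rfl⟩ := hY
      have hfix : Fix (p ^ (n + 1)) (s * g₀) := hf.mul hg₀
      have hrb : rb (s * g₀) = rb g₀ := by rw [map_mul, hs, one_mul]
      obtain ⟨Z, hZ, hdZ⟩ := hcon (s * g₀) hfix (by rw [hrb]; exact hg₀e)
      have e1 := hcoc s g₀
      rw [adAct_eq_of_rb_eq_one rb _ s hs (hχ1 s hs)] at e1
      have e2 : adAct rb (detChar rb) (s * g₀) Z = adAct rb (detChar rb) g₀ Z := by
        rw [adAct_mul, adAct_eq_of_rb_eq_one rb _ s hs (hχ1 s hs)]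
      refine ⟨Z - Y₁, by rw [Matrix.trace_sub, hZ, hY₁, sub_zero], ?_⟩
      have e3 : d s = d (s * g₀) - d g₀ := by
        rw [e1]
        abel
      rw [e3, hdZ, hdg₀, e2, map_sub]
      abel
    | zero => exact ⟨0, Matrix.trace_zero _ _, by rw [map_zero, sub_zero]⟩
    | add Y Y' _ _ hY hY' =>
      obtain ⟨Z, hZ, rfl⟩ := hY
      obtain ⟨Z', hZ', rfl⟩ := hY'
      refine ⟨Z + Z', by rw [Matrix.trace_add, hZ, hZ', add_zero], ?_⟩
      rw [map_add]
      abel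
    | smul a Y _ hY =>
      obtain ⟨Z, hZ, rfl⟩ := hY
      exact ⟨a • Z, by rw [Matrix.trace_smul, hZ, smul_zero], by rw [map_smul, smul_sub]⟩
  obtain ⟨α, β, hαβ, hpoly⟩ := hg₀e
  obtain ⟨htr, hdet⟩ := trace_det_of_charpoly hpoly
  let Y₀ : Mat2 k := rb g₀ - ((rb g₀).trace / 2) • (1 : Mat2 k)
  have hY₀tr : Y₀.trace = 0 := by
    simp only [Y₀]
    rw [Matrix.trace_sub, Matrix.trace_smul, Matrix.trace_one, Fintype.card_fin, smul_eq_mul]
    push_cast
    field_simp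
    ring
  have hY₀W : Y₀ ∈ W := by
    rw [hWtop]
    exact hY₀tr
  obtain ⟨Z, hZ, hY₀Z⟩ := hR Y₀ hY₀W
  have hχg₀ : ((detChar rb g₀ : kˣ) : k) = 1 := by
    rw [detChar_apply]
    exact det_eq_one_of_fix h hg₀
  have hcomm : Y₀ * rb g₀ = rb g₀ * Y₀ := by
    simp only [Y₀]
    rw [sub_mul, mul_sub, Matrix.smul_mul, Matrix.mul_smul, one_mul, mul_one]
  have hpair : (Y₀ * Y₀).trace = 0 := by
    have e1 : (Y₀ * (rb g₀ * Z * rb g₀⁻¹)).trace = (Y₀ * Z).trace := by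
      calc (Y₀ * (rb g₀ * Z * rb g₀⁻¹)).trace = ((Y₀ * rb g₀ * Z) * rb g₀⁻¹).trace := by
            simp only [mul_assoc]
        _ = (rb g₀⁻¹ * (Y₀ * rb g₀ * Z)).trace := Matrix.trace_mul_comm _ _
        _ = (rb g₀⁻¹ * (rb g₀ * Y₀ * Z)).trace := by rw [hcomm]
        _ = (Y₀ * Z).trace := by rw [← mul_assoc, ← mul_assoc, rb_inv_mul, one_mul]
    have e2 : Y₀ * Y₀ = Y₀ * (rb g₀ * Z * rb g₀⁻¹) - Y₀ * Z := by
      nth_rewrite 2 [hY₀Z]
      rw [adAct_apply, hχg₀, one_smul, mul_sub]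
    rw [e2, Matrix.trace_sub, e1, sub_self]
  have hdetY : Y₀.det = (rb g₀).det - (rb g₀).trace ^ 2 / 4 := by
    have h4 : (4 : k) ≠ 0 := by
      have : (4 : k) = 2 * 2 := by norm_num
      rw [this]
      exact mul_ne_zero h2 h2
    simp only [Y₀, Matrix.det_fin_two, Matrix.trace_fin_two, Matrix.sub_apply, Matrix.smul_apply,
      Matrix.one_apply_eq, smul_eq_mul, mul_one, ne_eq, zero_ne_one, not_false_eq_true,
      Matrix.one_apply_ne, one_ne_zero, mul_zero, sub_zero]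
    field_simp
    ring
  rw [mul_self_of_trace_eq_zero hY₀tr, Matrix.trace_smul, Matrix.trace_one, Fintype.card_fin,
    smul_eq_mul, hdetY, htr, hdet] at hpair
  apply hαβ
  have h4 : (4 : k) ≠ 0 := by
    have : (4 : k) = 2 * 2 := by norm_num
    rw [this]
    exact mul_ne_zero h2 h2
  have e : (α - β) ^ 2 = 0 := by
    push_cast at hpair
    have e4 : (α - β) ^ 2 * 2 = 0 := by
      have e5 : (α - β) ^ 2 * 2 = (-(α * β - (α + β) ^ 2 / 4) * 2) * 4 := by
        field_simp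
        ring
      rw [e5, hpair, zero_mul]
    exact (mul_eq_zero.mp e4).resolve_right h2
  exact sub_eq_zero.mp (pow_eq_zero_iff (two_ne_zero) |>.mp e)

end Fermat.Agent.TW
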